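/-
S33 / Layer II_p: a Laurent series which is algebraic over the field of coefficients is constant.
TASK CECH-14.  Mathlib only.
-/
import Mathlib

set_option autoImplicit false

namespace Fermat.Agent.S33.Cech

open Polynomial

/-- `k` is algebraically closed in `k((q))`.
Proof: `r` is integral over `k[[q]]`, which is integrally closed in its fraction field `k((q))`, so
`r` is a power series `p`, integral over `k`.  Its minimal polynomial over `k` is irreducible and has
the root `p(0)` (apply the constant coefficient map), so it has degree one. -/
theorem exists_const_of_aeval_eq_zero {k : Type*} [Field k] (r : LaurentSeries k) (f : k[X])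
    (hf : f.Monic) (h : aeval r f = 0) : ∃ c : k, r = algebraMap k (LaurentSeries k) c := by
  have htower : @IsScalarTower k (PowerSeries k) (LaurentSeries k) _ _ Algebra.toSMul :=
    IsScalarTower.of_algebraMap_eq fun _ => rfl
  have hr : IsIntegral k r := ⟨f, hf, h⟩
  have hr' : IsIntegral (PowerSeries k) r := hr.tower_top
  obtain ⟨p, rfl⟩ := (IsIntegrallyClosed.isIntegral_iff (R := PowerSeries k)).1 hr'
  have hp : IsIntegral k p :=
    (isIntegral_algebraMap_iff (IsFractionRing.injective (PowerSeries k) (LaurentSeries k))).1 hr
  have hroot : (minpoly k p).IsRoot (PowerSeries.constantCoeff (R := k) p) := by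
    have h1 := congrArg (PowerSeries.constantCoeff (R := k)) (minpoly.aeval k p)
    rw [aeval_def, hom_eval₂, map_zero] at h1
    have h2 : (PowerSeries.constantCoeff (R := k)).comp (algebraMap k (PowerSeries k)) =
        RingHom.id k := by
      ext c
      simp
    rw [h2, eval₂_id] at h1
    exact h1
  have hdeg := degree_eq_one_of_irreducible_of_root (minpoly.irreducible hp) hroot
  obtain ⟨c, hc⟩ := minpoly.mem_range_of_degree_eq_one k p hdeg
  exact ⟨c, by rw [← hc, ← IsScalarTower.algebraMap_apply]⟩

end Fermat.Agent.S33.Cech
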