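/-
S33 / Layer II_p (owner helper73): good reduction, relative form (language of KL-A, `IsVert`,
`IsCoord`, `chart`).  Definitions.
-/
import Fermat.Agent.S33.Cech.Good.Data
import Fermat.Agent.S18.Chart.IsChart
import Fermat.Agent.S18.Chart.Cover

set_option autoImplicit false

namespace Fermat.Agent.S33.Cech

open Polynomial IntermediateField Fermat.Agent.S18

variable {K₀ F : Type*} [Field K₀] [Field F] [Algebra K₀ F]

/-- The arithmetic hypotheses on the discrete valuation ring `A₀` at the residue characteristic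
`p`: `p = η₀ ϖ₀ ^ e` with `η₀` a unit, and the residue field is perfect. -/
structure IsArithP (p : ℕ) (A₀ : ValuationSubring K₀) (ϖ₀ η₀ : K₀) (e : ℕ) : Prop where
  η_mem : η₀ ∈ A₀
  η_inv : η₀⁻¹ ∈ A₀
  e_pos : 0 < e
  p_eq : (p : K₀) = η₀ * ϖ₀ ^ e
  perfect : ∀ c ∈ A₀, ∃ d ∈ A₀, (d ^ p - c) / ϖ₀ ∈ A₀

/-- The residue field of `A₀` is algebraically closed in the residue field of `Ow`. -/
def ResConst (A₀ : ValuationSubring K₀) (ϖ₀ : K₀) (Ow : ValuationSubring F) : Prop :=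
  ∀ z ∈ Ow, ∀ f : K₀[X], f.Monic → (∀ i, f.coeff i ∈ A₀) →
    aeval z f / algebraMap K₀ F ϖ₀ ∈ Ow →
    ∃ d ∈ A₀, (z - algebraMap K₀ F d) / algebraMap K₀ F ϖ₀ ∈ Ow

end Fermat.Agent.S33.Cech
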