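/-
S33 / Layer II_p: arithmetic of a discrete valuation ring of residue characteristic `p` containing
the `p`-th roots of unity.  TASK CECH-17.
-/
import Fermat.Agent.S33.Cech.Mod.Defs

set_option autoImplicit false

namespace Fermat.Agent.S33.Cech

open Polynomial Fermat.Agent.S18

variable {K₀ : Type*} [Field K₀] [CharZero K₀] {A₀ : ValuationSubring K₀} {ϖ₀ : K₀}

/-! ### auxiliary lemmas -/

theorem arith_mem_of_pow_eq_one (P : ValuationSubring K₀) {μ : K₀} {n : ℕ} (hn : 0 < n)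
    (hμ : μ ^ n = 1) : μ ∈ P := by
  rcases P.mem_or_inv_mem μ with h | h
  · exact h
  · have h1 : μ = μ⁻¹ ^ (n - 1) := by
      have hμ0 : μ ≠ 0 := by
        rintro rfl
        rw [zero_pow hn.ne'] at hμ
        exact zero_ne_one hμ
      obtain ⟨m, rfl⟩ := Nat.exists_eq_succ_of_ne_zero hn.ne'
      rw [Nat.succ_sub_one, inv_pow]
      rw [pow_succ] at hμ
      exact eq_inv_of_mul_eq_one_right hμ
    rw [h1]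
    exact pow_mem h _

/-- `1 - μ` divides `1 - ν` when `ν` is a power of `μ`. -/
theorem arith_val_one_sub_le (P : ValuationSubring K₀) {p : ℕ} (hp : 0 < p) {μ ν : K₀}
    (hμ : IsPrimitiveRoot μ p) (hν : ν ^ p = 1) :
    P.valuation (1 - ν) ≤ P.valuation (1 - μ) := by
  have : NeZero p := ⟨hp.ne'⟩
  obtain ⟨i, -, rfl⟩ := hμ.eq_pow_of_pow_eq_one hν
  have h1 : 1 - μ ^ i = (∑ j ∈ Finset.range i, μ ^ j) * (1 - μ) := by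
    have := geom_sum_mul μ i
    linear_combination this
  have hμP : μ ∈ P := arith_mem_of_pow_eq_one P hp hμ.pow_eq_one
  have h2 : (∑ j ∈ Finset.range i, μ ^ j) ∈ P := sum_mem fun j _ => pow_mem hμP j
  rw [h1, map_mul]
  exact mul_le_of_le_one_left' ((P.valuation_le_one_iff _).2 h2)

theorem arith_val_natCast_eq (P : ValuationSubring K₀) {p : ℕ} (hp : p.Prime) {ζ : K₀}
    (hζ : IsPrimitiveRoot ζ p) : P.valuation (p : K₀) = P.valuation (1 - ζ) ^ (p - 1) := by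
  have : Fact p.Prime := ⟨hp⟩
  have : NeZero p := ⟨hp.ne_zero⟩
  have h1 : (p : K₀) = ∏ μ ∈ primitiveRoots p K₀, (1 - μ) := by
    have h2 := congrArg (eval 1) (cyclotomic_eq_prod_X_sub_primitiveRoots hζ)
    rw [eval_one_cyclotomic_prime, eval_prod] at h2
    simpa using h2
  rw [h1, map_prod]
  have h3 : ∀ μ ∈ primitiveRoots p K₀, P.valuation (1 - μ) = P.valuation (1 - ζ) := by
    intro μ hμ
    have hμ' : IsPrimitiveRoot μ p := (mem_primitiveRoots hp.pos).1 hμ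
    exact le_antisymm (arith_val_one_sub_le P hp.pos hζ hμ'.pow_eq_one)
      (arith_val_one_sub_le P hp.pos hμ' hζ.pow_eq_one)
  rw [Finset.prod_congr rfl h3, Finset.prod_const, hζ.card_primitiveRoots, Nat.totient_prime hp]

/-- `1 + ζ + ⋯ + ζ ^ (c - 1) ≡ c mod (ζ - 1)`. -/
theorem arith_geom_sum_sub (P : ValuationSubring K₀) {ζ : K₀} (hζ : ζ ∈ P) (c : ℕ) :
    ∃ R ∈ P, (∑ i ∈ Finset.range c, ζ ^ i) - c = (ζ - 1) * R := by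
  induction c with
  | zero => exact ⟨0, P.zero_mem, by simp⟩
  | succ c ih =>
    obtain ⟨R, hR, h⟩ := ih
    refine ⟨R + ∑ i ∈ Finset.range c, ζ ^ i, P.add_mem _ _ hR (sum_mem fun j _ => pow_mem hζ j), ?_⟩
    rw [Finset.sum_range_succ]
    have h2 := geom_sum_mul ζ c
    push_cast
    linear_combination h - h2

/-- `(ζ - 1) ^ (p - 1) = p * unit`: `p = ∏_{0 < i < p} (1 - ζ ^ i)` and
`(1 - ζ ^ i) / (1 - ζ) = 1 + ζ + ⋯ + ζ ^ (i - 1)` is a unit of `ℤ[ζ] ⊆ A₀` (its inverse is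
`(1 - (ζ ^ i) ^ i') / (1 - ζ ^ i)`, `i i' ≡ 1 mod p`). -/
theorem exists_unit_zeta {p : ℕ} (hp : p.Prime) {ζ : K₀} (hζ : IsPrimitiveRoot ζ p) :
    ∃ ε : K₀, ε ∈ A₀ ∧ ε⁻¹ ∈ A₀ ∧ (p : K₀) = ε * (ζ - 1) ^ (p - 1) := by
  have hζ1 : ζ - 1 ≠ 0 := sub_ne_zero.mpr (hζ.ne_one hp.one_lt)
  have hpow : (ζ - 1) ^ (p - 1) ≠ 0 := pow_ne_zero _ hζ1
  have hv0 : A₀.valuation ((ζ - 1) ^ (p - 1)) ≠ 0 := (Valuation.ne_zero_iff _).mpr hpow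
  have hv : A₀.valuation ((p : K₀) / (ζ - 1) ^ (p - 1)) = 1 := by
    rw [map_div₀, arith_val_natCast_eq A₀ hp hζ, ← map_pow]
    have h1 : A₀.valuation ((1 - ζ) ^ (p - 1)) = A₀.valuation ((ζ - 1) ^ (p - 1)) := by
      rw [map_pow, map_pow, Valuation.map_sub_swap]
    rw [h1]
    exact div_self hv0
  refine ⟨(p : K₀) / (ζ - 1) ^ (p - 1), (A₀.valuation_le_one_iff _).mp hv.le, ?_, ?_⟩
  · apply (A₀.valuation_le_one_iff _).mp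
    rw [map_inv₀, hv, inv_one]
  · rw [div_mul_cancel₀ _ hpow]

/-- `ζ - 1 = μ ϖ₀ ^ j0` with `(p - 1) j0 = e`. -/
theorem exists_zeta_unif {p : ℕ} (hp : p.Prime) (h₀ : IsUnif A₀ ϖ₀) {η₀ : K₀} {e : ℕ}
    (hP : IsArithP p A₀ ϖ₀ η₀ e) {ζ : K₀} (hζ : IsPrimitiveRoot ζ p) :
    ∃ (j0 : ℕ) (μ : K₀), (p - 1) * j0 = e ∧ μ ∈ A₀ ∧ μ⁻¹ ∈ A₀ ∧ ζ - 1 = μ * ϖ₀ ^ j0 := by
  have hζ1 : ζ - 1 ≠ 0 := sub_ne_zero.mpr (hζ.ne_one hp.one_lt)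
  have hϖ : ϖ₀ ≠ 0 := CoordAux.unif_ne_zero h₀
  obtain ⟨ε, hε, hε', hpε⟩ := exists_unit_zeta (A₀ := A₀) hp hζ
  obtain ⟨n, hn, hn'⟩ := h₀.exists_zpow (ζ - 1) hζ1
  set μ := (ζ - 1) / ϖ₀ ^ n with hμ
  have hzn : ϖ₀ ^ n ≠ 0 := zpow_ne_zero _ hϖ
  have hμ0 : μ ≠ 0 := div_ne_zero hζ1 hzn
  have hζμ : ζ - 1 = μ * ϖ₀ ^ n := by rw [hμ, div_mul_cancel₀ _ hzn]
  have hp0 : (p : K₀) ≠ 0 := by exact_mod_cast hp.ne_zero
  have hη0 : η₀ ≠ 0 := by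
    rintro rfl
    rw [hP.p_eq, zero_mul] at hp0
    exact hp0 rfl
  have hε0 : ε ≠ 0 := by
    rintro rfl
    rw [hpε, zero_mul] at hp0
    exact hp0 rfl
  -- the comparison of the two factorisations of `p`
  have hcmp : η₀ * ϖ₀ ^ (e : ℤ) = ε * μ ^ (p - 1) * ϖ₀ ^ (n * ((p - 1 : ℕ) : ℤ)) := by
    rw [zpow_natCast, ← hP.p_eq, hpε, hζμ, mul_pow, zpow_mul, zpow_natCast, mul_assoc]
  have h1 : ϖ₀ ^ ((e : ℤ) - n * ((p - 1 : ℕ) : ℤ)) = ε * μ ^ (p - 1) * η₀⁻¹ := by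
    rw [zpow_sub₀ hϖ, div_eq_iff (zpow_ne_zero _ hϖ)]
    field_simp
    linear_combination hcmp
  have h2 : ϖ₀ ^ (n * ((p - 1 : ℕ) : ℤ) - (e : ℤ)) = η₀ * (μ⁻¹) ^ (p - 1) * ε⁻¹ := by
    rw [zpow_sub₀ hϖ, div_eq_iff (zpow_ne_zero _ hϖ), inv_pow]
    field_simp
    linear_combination -hcmp
  have h3 : 0 ≤ (e : ℤ) - n * ((p - 1 : ℕ) : ℤ) := CoordAux.nonneg_of_zpow_mem h₀ (by
    rw [h1]
    exact mul_mem (mul_mem hε (pow_mem hn _)) hP.η_inv)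
  have h4 : 0 ≤ n * ((p - 1 : ℕ) : ℤ) - (e : ℤ) := CoordAux.nonneg_of_zpow_mem h₀ (by
    rw [h2]
    exact mul_mem (mul_mem hP.η_mem (pow_mem hn' _)) hε')
  have h5 : n * ((p - 1 : ℕ) : ℤ) = e := by omega
  have hn0 : 0 ≤ n := by
    by_contra hneg
    have hepos : (0 : ℤ) < e := by exact_mod_cast hP.e_pos
    have : n * ((p - 1 : ℕ) : ℤ) ≤ 0 :=
      mul_nonpos_of_nonpos_of_nonneg (by omega) (Int.natCast_nonneg _)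
    omega
  obtain ⟨j0, rfl⟩ := Int.eq_ofNat_of_zero_le hn0
  refine ⟨j0, μ, ?_, hn, hn', ?_⟩
  · have : ((j0 * (p - 1) : ℕ) : ℤ) = (e : ℤ) := by
      push_cast
      exact h5
    have h6 : j0 * (p - 1) = e := by exact_mod_cast this
    rw [mul_comm]
    exact h6
  · rw [hζμ, zpow_natCast]

/-- An automorphism in the inertia group with `τ ζ = ζ ^ c` multiplies `ϖ₀ ^ j0` by `c` to first
order: `ϖ₀ ^ j0 = μ⁻¹ (ζ - 1)`, `τ μ⁻¹ ≡ μ⁻¹ mod ϖ₀`,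
`τ (ζ - 1) = ζ ^ c - 1 = (ζ - 1) (1 + ζ + ⋯ + ζ ^ (c - 1)) ≡ c (ζ - 1) mod (ζ - 1) ^ 2`
(and `1 ≤ j0` because `0 < e`).  The hypothesis `ζ ≠ 1` excludes the degenerate case `μ = 0`
(where `μ⁻¹ = 0` is in `A₀`, and the statement fails for `τ = id`, `c = 0`). -/
theorem sigma_unif {p : ℕ} (_hp : p.Prime) (h₀ : IsUnif A₀ ϖ₀) {ζ μ : K₀} {j0 : ℕ} (hj0 : 1 ≤ j0)
    (hμ : μ ∈ A₀) (hμ' : μ⁻¹ ∈ A₀) (hζμ : ζ - 1 = μ * ϖ₀ ^ j0) (hζ1 : ζ ≠ 1)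
    (τ : K₀ ≃+* K₀) (_hτA : ∀ a ∈ A₀, τ a ∈ A₀) (hτI : ∀ a ∈ A₀, (τ a - a) / ϖ₀ ∈ A₀) {c : ℕ}
    (hτζ : τ ζ = ζ ^ c) :
    (τ (ϖ₀ ^ j0) - c * ϖ₀ ^ j0) / ϖ₀ ^ (j0 + 1) ∈ A₀ := by
  have hϖ : ϖ₀ ≠ 0 := CoordAux.unif_ne_zero h₀
  have hμ0 : μ ≠ 0 := by
    rintro rfl
    rw [zero_mul] at hζμ
    exact hζ1 (sub_eq_zero.mp hζμ)
  have hϖA : ϖ₀ ∈ A₀ := h₀.mem
  have hζA : ζ ∈ A₀ := by
    have : ζ = 1 + μ * ϖ₀ ^ j0 := by linear_combination hζμ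
    rw [this]
    exact add_mem (one_mem _) (mul_mem hμ (pow_mem hϖA _))
  obtain ⟨R, hR, hRS⟩ := arith_geom_sum_sub A₀ hζA c
  set S := ∑ i ∈ Finset.range c, ζ ^ i with hS
  have hSA : S ∈ A₀ := sum_mem fun j _ => pow_mem hζA j
  have hgeom : S * (ζ - 1) = ζ ^ c - 1 := geom_sum_mul ζ c
  set a := (τ μ⁻¹ - μ⁻¹) / ϖ₀ with ha
  have haA : a ∈ A₀ := hτI _ hμ'
  have hτμ : τ μ⁻¹ = μ⁻¹ + ϖ₀ * a := by
    rw [ha, mul_div_cancel₀ _ hϖ]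
    ring
  have hpow : ϖ₀ ^ j0 = μ⁻¹ * (ζ - 1) := by
    rw [hζμ, inv_mul_cancel_left₀ hμ0]
  have hτpow : τ (ϖ₀ ^ j0) = (μ⁻¹ + ϖ₀ * a) * (S * (ζ - 1)) := by
    rw [hpow, map_mul, hτμ, map_sub, map_one, hτζ, hgeom]
  obtain ⟨k, rfl⟩ : ∃ k, j0 = k + 1 := ⟨j0 - 1, by omega⟩
  have key : (τ (ϖ₀ ^ (k + 1)) - c * ϖ₀ ^ (k + 1)) / ϖ₀ ^ (k + 1 + 1)
      = μ * ϖ₀ ^ k * R + a * μ * S := by
    rw [div_eq_iff (pow_ne_zero _ hϖ), hτpow]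
    have hSc : S = c + (ζ - 1) * R := by linear_combination hRS
    have hinv : μ⁻¹ * μ = 1 := inv_mul_cancel₀ hμ0
    rw [hζμ]
    rw [hζμ] at hSc
    linear_combination (S * ϖ₀ ^ (k + 1)) * hinv + ϖ₀ ^ (k + 1) * hSc
  rw [key]
  exact add_mem (mul_mem (mul_mem hμ (pow_mem hϖA _)) hR) (mul_mem (mul_mem haA hμ) hSA)

end Fermat.Agent.S33.Cech
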