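/-
S33 / Layer II_p: the arithmetic hypotheses `IsArithP` for `A ∩ K₀`, `K₀` a number field.
TASK CECH-18.
-/
import Fermat.Agent.S33.Cech.Mod.Defs
import Fermat.Agent.S18.Descent.DVRUnif
import Fermat.Agent.Lib.InertiaField.Residue

set_option autoImplicit false

namespace Fermat.Agent.S33.Cech

open Polynomial Fermat.Agent.S18 Fermat.Agent.S24

private theorem arithNF_inv_notMem {F : Type*} [Field F] (V : ValuationSubring F) {x : F}
    (hx0 : x ≠ 0) (hx : x ∈ V.nonunits) : x⁻¹ ∉ V := by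
  intro h
  rw [ValuationSubring.mem_nonunits_iff] at hx
  have h1 : V.valuation x⁻¹ ≤ 1 := (V.valuation_le_one_iff _).mpr h
  have h2 : V.valuation x * V.valuation x⁻¹ = 1 := by
    rw [← map_mul, mul_inv_cancel₀ hx0, map_one]
  exact absurd h2 (mul_lt_one_of_lt_of_le hx h1).ne

private theorem arithNF_notMem_nonunits {F : Type*} [Field F] (V : ValuationSubring F) {x : F}
    (hx0 : x ≠ 0) (hx : x⁻¹ ∈ V) : x ∉ V.nonunits :=
  fun h => arithNF_inv_notMem V hx0 h hx

/-- `p = η₀ ϖ₀ ^ e` (`IsUnif.exists_zpow`; `0 < e` because `p` is not a unit), and the residue field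
is perfect: for a unit `c` of `A` there is `n` prime to `p` with `c ^ n ≡ 1`
(`Lib.InertiaField.exists_pow_sub_one_mem`); choose `r ≥ 1` with `p ^ r ≡ 1 mod n`; then
`c ^ (p ^ r) ≡ c`, take `d = c ^ (p ^ (r - 1))`.  For a non unit `c` take `d = 0`. -/
theorem exists_isArithP (A : ValuationSubring Kbar) {p : ℕ} [Fact p.Prime]
    (hA : A.LiesOverPrime p) (K₀ : IntermediateField ℚ Kbar) {ϖ₀ : K₀}
    (h₀ : IsUnif (A.comap (algebraMap K₀ Kbar)) ϖ₀) :
    ∃ (η₀ : K₀) (e : ℕ), IsArithP p (A.comap (algebraMap K₀ Kbar)) ϖ₀ η₀ e := by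
  have hp : p.Prime := Fact.out
  set A₀ := A.comap (algebraMap K₀ Kbar) with hA₀
  have hϖ0 : ϖ₀ ≠ 0 := h₀.ne_zero
  have hp0 : (p : K₀) ≠ 0 := Nat.cast_ne_zero.mpr hp.ne_zero
  obtain ⟨e, hη, hη'⟩ := h₀.exists_unit_div_pow (natCast_mem A₀ p) hp0
  -- elements of `A₀` whose image is a non unit of `A` are divisible by `ϖ₀`
  have hdiv : ∀ y ∈ A₀, algebraMap K₀ Kbar y ∈ A.nonunits → y / ϖ₀ ∈ A₀ := by
    intro y hy hy'
    rcases eq_or_ne y 0 with rfl | hy0
    · rw [zero_div]; exact A₀.zero_mem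
    · refine h₀.div_mem hy fun hinv => ?_
      have h1 : (algebraMap K₀ Kbar y)⁻¹ ∈ A := by
        rw [← map_inv₀]
        exact hinv
      exact arithNF_inv_notMem A (by rwa [Ne, map_eq_zero]) hy' h1
  refine ⟨(p : K₀) / ϖ₀ ^ e, e, hη, hη', ?_, ?_, ?_⟩
  · rcases Nat.eq_zero_or_pos e with rfl | he
    · exfalso
      rw [pow_zero, div_one] at hη'
      have h1 : ((p : Kbar))⁻¹ ∈ A := by
        have : algebraMap K₀ Kbar ((p : K₀)⁻¹) ∈ A := hη'
        rwa [map_inv₀, map_natCast] at this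
      exact arithNF_inv_notMem A (Nat.cast_ne_zero.mpr hp.ne_zero) hA h1
    · exact he
  · rw [div_mul_cancel₀ _ (pow_ne_zero e hϖ0)]
  · intro c hc
    by_cases hcu : c ≠ 0 ∧ c⁻¹ ∈ A₀
    · obtain ⟨hc0, hcinv⟩ := hcu
      have ha : algebraMap K₀ Kbar c ∈ A := hc
      have ha' : algebraMap K₀ Kbar c ∉ A.nonunits := by
        refine arithNF_notMem_nonunits A (by rwa [Ne, map_eq_zero]) ?_
        rw [← map_inv₀]
        exact hcinv
      obtain ⟨n, hpn, hn⟩ := Lib.InertiaField.exists_pow_sub_one_mem A p hp hA ha ha'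
      have hn0 : 0 < n := Nat.pos_of_ne_zero (by rintro rfl; exact hpn (dvd_zero p))
      have hcop : Nat.Coprime p n := (Nat.Prime.coprime_iff_not_dvd hp).mpr hpn
      have hr : 0 < Nat.totient n := Nat.totient_pos.mpr hn0
      obtain ⟨k, hk⟩ : n ∣ p ^ Nat.totient n - 1 :=
        (Nat.modEq_iff_dvd' (Nat.one_le_pow _ _ hp.pos)).mp (Nat.ModEq.pow_totient hcop).symm
      have hk' : p ^ Nat.totient n = n * k + 1 := by
        have := Nat.one_le_pow (Nat.totient n) p hp.pos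
        omega
      refine ⟨c ^ p ^ (Nat.totient n - 1), A₀.pow_mem hc _, ?_⟩
      have h1 : (c ^ p ^ (Nat.totient n - 1)) ^ p - c =
          c * (∑ i ∈ Finset.range k, (c ^ n) ^ i) * (c ^ n - 1) := by
        rw [← pow_mul, ← pow_succ, Nat.sub_add_cancel hr, hk', pow_succ, pow_mul, mul_assoc,
          mul_comm (∑ i ∈ Finset.range k, (c ^ n) ^ i), mul_geom_sum]
        ring
      rw [h1, mul_div_assoc]
      refine A₀.mul_mem _ _ (A₀.mul_mem _ _ hc (sum_mem fun i _ => A₀.pow_mem (A₀.pow_mem hc n) i))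
        (hdiv _ (A₀.sub_mem (A₀.pow_mem hc n) A₀.one_mem) ?_)
      rw [map_sub, map_pow, map_one]
      exact hn
    · refine ⟨0, A₀.zero_mem, ?_⟩
      rw [zero_pow hp.ne_zero, zero_sub, neg_div]
      apply A₀.neg_mem
      rcases eq_or_ne c 0 with rfl | hc0
      · rw [zero_div]; exact A₀.zero_mem
      · exact h₀.div_mem hc fun h => hcu ⟨hc0, h⟩

end Fermat.Agent.S33.Cech
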