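/-
S33 / Layer II_p: functions on the special fibre regular on both charts are constant.  TASK CECH-12.
-/
import Fermat.Agent.S33.Cech.Mod.Defs

set_option autoImplicit false

namespace Fermat.Agent.S33.Cech

open Polynomial IntermediateField Fermat.Agent.S18

variable {K₀ F : Type*} [Field K₀] [CharZero K₀] [Field F] [Algebra K₀ F]
variable {A₀ : ValuationSubring K₀} {ϖ₀ : K₀} {Ow : ValuationSubring F}
variable {E : IntermediateField K₀ F} {x : F}

/-- `Ow ∩ K₀ = A₀`. -/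
theorem mem_of_algebraMap_mem (hV : IsVert A₀ ϖ₀ Ow E) {a : K₀} (ha : algebraMap K₀ F a ∈ Ow) :
    a ∈ A₀ := by
  by_contra hna
  have h1 : a⁻¹ / ϖ₀ ∈ A₀ := CoordAux.div_mem_of_inv_notMem hV.unif₀ (by rwa [inv_inv])
  have ha0 : a ≠ 0 := by
    rintro rfl
    exact hna A₀.zero_mem
  have h2 := hV.const_mem _ h1
  apply hV.unif.inv_notMem
  have h3 : (algebraMap K₀ F ϖ₀)⁻¹ = algebraMap K₀ F a * algebraMap K₀ F (a⁻¹ / ϖ₀) := by
    rw [← map_mul, ← map_inv₀]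
    congr 1
    field_simp
  rw [h3]
  exact Ow.mul_mem _ _ ha h2

/-- the residue of `y` vanishes iff `y` is divisible by the uniformiser -/
private theorem h0c_residue_eq_zero_iff {L : Type*} [Field L] {O : ValuationSubring L} {ϖ : L}
    (h : IsUnif O ϖ) (y : O) : IsLocalRing.residue O y = 0 ↔ (y : L) / ϖ ∈ O := by
  rw [IsLocalRing.residue_eq_zero_iff, IsLocalRing.mem_maximalIdeal, mem_nonunits_iff]
  constructor
  · intro hnu
    by_cases hy0 : (y : L) = 0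
    · rw [hy0, zero_div]
      exact O.zero_mem
    · refine CoordAux.div_mem_of_inv_notMem h fun hinv => hnu ?_
      exact IsUnit.of_mul_eq_one ⟨(y : L)⁻¹, hinv⟩ (Subtype.ext (mul_inv_cancel₀ hy0))
  · intro hdiv hu
    obtain ⟨u, hu⟩ := hu.exists_right_inv
    have h1 : (y : L) * (u : L) = 1 := congrArg Subtype.val hu
    have hy0 : (y : L) ≠ 0 := left_ne_zero_of_mul_eq_one h1
    have h2 : (y : L)⁻¹ = u := inv_eq_of_mul_eq_one_right h1
    exact CoordAux.not_div_mem_of_unit h hy0 (by rw [h2]; exact u.2) hdiv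

/-- `A₀ → Ow` -/
private noncomputable def h0c_phi (hV : IsVert A₀ ϖ₀ Ow E) : A₀ →+* Ow :=
  ((algebraMap K₀ F).comp A₀.subtype).codRestrict Ow (fun a => hV.const_mem a a.2)

private theorem h0c_phi_coe (hV : IsVert A₀ ϖ₀ Ow E) (a : A₀) :
    ((h0c_phi hV a : Ow) : F) = algebraMap K₀ F (a : K₀) := rfl

private theorem h0c_isLocalHom (hV : IsVert A₀ ϖ₀ Ow E) : IsLocalHom (h0c_phi hV) where
  map_nonunit a ha := by
    obtain ⟨u, hu⟩ := ha.exists_right_inv
    have h1 : algebraMap K₀ F (a : K₀) * (u : F) = 1 := congrArg Subtype.val hu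
    have ha0 : (a : K₀) ≠ 0 := by
      intro h0
      rw [h0, map_zero, zero_mul] at h1
      exact zero_ne_one h1
    have h2 : algebraMap K₀ F (a : K₀)⁻¹ = u := by
      rw [map_inv₀]
      exact inv_eq_of_mul_eq_one_right h1
    have h3 : (a : K₀)⁻¹ ∈ A₀ := mem_of_algebraMap_mem hV (by rw [h2]; exact u.2)
    exact IsUnit.of_mul_eq_one ⟨(a : K₀)⁻¹, h3⟩ (Subtype.ext (mul_inv_cancel₀ ha0))

private theorem h0c_exists_lift (p : K₀[X]) (hp : ∀ i, p.coeff i ∈ A₀) :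
    ∃ p₀ : A₀[X], p₀.map A₀.subtype = p := by
  have h : p ∈ Polynomial.lifts A₀.subtype := by
    rw [Polynomial.lifts_iff_coeff_lifts]
    intro i
    exact ⟨⟨_, hp i⟩, rfl⟩
  exact (Polynomial.mem_lifts p).1 h

private theorem h0c_aeval_eq (hV : IsVert A₀ ϖ₀ Ow E) (z : Ow) (p₀ : A₀[X]) :
    aeval (z : F) (p₀.map A₀.subtype) = ((eval₂ (h0c_phi hV) z p₀ : Ow) : F) := by
  change _ = Ow.subtype (eval₂ (h0c_phi hV) z p₀)
  rw [hom_eval₂, aeval_def, eval₂_map]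
  rfl

private theorem h0c_residue_eval₂ (hV : IsVert A₀ ϖ₀ Ow E) [IsLocalHom (h0c_phi hV)] (z : Ow)
    (p₀ : A₀[X]) :
    IsLocalRing.residue Ow (eval₂ (h0c_phi hV) z p₀) =
      eval₂ (IsLocalRing.ResidueField.map (h0c_phi hV)) (IsLocalRing.residue Ow z)
        (p₀.map (IsLocalRing.residue A₀)) := by
  rw [hom_eval₂, eval₂_map, IsLocalRing.ResidueField.map_comp_residue]

private theorem h0c_transc (hV : IsVert A₀ ϖ₀ Ow E) (hx : IsCoord A₀ ϖ₀ Ow E x)
    [IsLocalHom (h0c_phi hV)] (q : (IsLocalRing.ResidueField A₀)[X])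
    (hq : eval₂ (IsLocalRing.ResidueField.map (h0c_phi hV))
      (IsLocalRing.residue Ow ⟨x, hx.mem⟩) q = 0) : q = 0 := by
  obtain ⟨p₀, rfl⟩ := Polynomial.map_surjective _ IsLocalRing.residue_surjective q
  rw [← h0c_residue_eval₂, h0c_residue_eq_zero_iff hV.unif, ← h0c_aeval_eq] at hq
  have h1 := hx.transc (p₀.map A₀.subtype) (fun i => by rw [coeff_map]; exact (p₀.coeff i).2) hq
  ext i
  rw [coeff_map, coeff_zero, h0c_residue_eq_zero_iff hV.unif₀]
  have h2 := h1 i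
  rwa [coeff_map] at h2

/-- the algebra structure `k₀ → κ` on the residue fields -/
private noncomputable def h0c_alg (hV : IsVert A₀ ϖ₀ Ow E) :
    Algebra (IsLocalRing.ResidueField A₀) (IsLocalRing.ResidueField Ow) :=
  haveI := h0c_isLocalHom hV
  (IsLocalRing.ResidueField.map (h0c_phi hV)).toAlgebra

private theorem h0c_mem_chart (hV : IsVert A₀ ϖ₀ Ow E) (hx : IsCoord A₀ ϖ₀ Ow E x) {b : F}
    (hb : b ∈ chart A₀.toSubring x) (hbO : b ∈ Ow) :
    letI := h0c_alg hV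
    IsLocalRing.residue Ow ⟨b, hbO⟩ ∈
      chart (⊤ : Subring (IsLocalRing.ResidueField A₀)) (IsLocalRing.residue Ow ⟨x, hx.mem⟩) := by
  haveI := h0c_isLocalHom hV
  letI := h0c_alg hV
  rw [mem_chart_iff_isIntegral] at hb ⊢
  obtain ⟨P, hPm, hP⟩ := hb
  let f' : polyRing A₀.toSubring x →+* Ow :=
    (Subring.subtype _).codRestrict Ow (fun r => polyRing_le_Ow hV hx r.1 r.2)
  letI : Algebra (polyRing A₀.toSubring x) (IsLocalRing.ResidueField Ow) :=
    ((IsLocalRing.residue Ow).comp f').toAlgebra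
  have hint : IsIntegral (polyRing A₀.toSubring x) (IsLocalRing.residue Ow ⟨b, hbO⟩) := by
    refine ⟨P, hPm, ?_⟩
    change eval₂ ((IsLocalRing.residue Ow).comp f') (IsLocalRing.residue Ow ⟨b, hbO⟩) P = 0
    rw [← hom_eval₂]
    have h0 : eval₂ f' ⟨b, hbO⟩ P = 0 := by
      apply Subtype.ext
      change Ow.subtype (eval₂ f' ⟨b, hbO⟩ P) = 0
      rw [hom_eval₂]
      exact hP
    rw [h0, map_zero]
  refine isIntegral_of_forall_exists_algebraMap ?_ hint
  intro r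
  obtain ⟨p, hp, hpr⟩ := (mem_polyRing_iff _ _ _).1 r.2
  obtain ⟨p₀, rfl⟩ := h0c_exists_lift p hp
  refine ⟨⟨eval₂ (IsLocalRing.ResidueField.map (h0c_phi hV)) (IsLocalRing.residue Ow ⟨x, hx.mem⟩)
    (p₀.map (IsLocalRing.residue A₀)), (mem_polyRing_iff _ _ _).2
      ⟨p₀.map (IsLocalRing.residue A₀), fun _ => trivial, rfl⟩⟩, ?_⟩
  change eval₂ (IsLocalRing.ResidueField.map (h0c_phi hV)) (IsLocalRing.residue Ow ⟨x, hx.mem⟩)
    (p₀.map (IsLocalRing.residue A₀)) = IsLocalRing.residue Ow (f' r)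
  rw [← h0c_residue_eval₂]
  congr 1
  apply Subtype.ext
  rw [← h0c_aeval_eq]
  exact hpr

/-- Functions on the special fibre which are regular on both charts are constant.
Proof: pass to the residue fields `k₀ = ResidueField A₀ → κ = ResidueField Ow`; the common residue
`β` of `b₁`, `b₂` is integral over `k₀[ξ]` and over `k₀[ξ⁻¹]` (`ξ` = residue of `x`, transcendental
by `IsCoord.transc`), so it is algebraic over `k₀` by `S18.const_abs` applied to `k₀ ⊆ κ`;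
lift its minimal polynomial to a monic polynomial over `A₀` and apply `ResConst`. -/
theorem h0_chart (hV : IsVert A₀ ϖ₀ Ow E) (hx : IsCoord A₀ ϖ₀ Ow E x)
    (hx' : IsCoord A₀ ϖ₀ Ow E x⁻¹) (hC : ResConst A₀ ϖ₀ Ow) :
    ∀ b1 ∈ chart A₀.toSubring x, ∀ b2 ∈ chart A₀.toSubring x⁻¹,
      (b1 - b2) / algebraMap K₀ F ϖ₀ ∈ Ow →
      ∃ c ∈ A₀.toSubring.map (algebraMap K₀ F), (b1 - c) / algebraMap K₀ F ϖ₀ ∈ Ow := by
  intro b1 hb1 b2 hb2 hdiff
  haveI := h0c_isLocalHom hV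
  letI := h0c_alg hV
  have hb1O : b1 ∈ Ow := chart_le hV hx b1 hb1
  have hb2O : b2 ∈ Ow := chart_le hV hx' b2 hb2
  have hx0 : x ≠ 0 := by
    rintro rfl
    exact hx.transcendental hV.unif₀ isAlgebraic_zero
  -- the residue of `x⁻¹`
  have hξ' : IsLocalRing.residue Ow ⟨x⁻¹, hx'.mem⟩ = (IsLocalRing.residue Ow ⟨x, hx.mem⟩)⁻¹ := by
    have h1 : IsLocalRing.residue Ow ⟨x, hx.mem⟩ * IsLocalRing.residue Ow ⟨x⁻¹, hx'.mem⟩ = 1 := by
      rw [← map_mul]
      have h2 : (⟨x, hx.mem⟩ * ⟨x⁻¹, hx'.mem⟩ : Ow) = 1 := Subtype.ext (mul_inv_cancel₀ hx0)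
      rw [h2, map_one]
    exact (inv_eq_of_mul_eq_one_right h1).symm
  -- the common residue
  have hβ : IsLocalRing.residue Ow ⟨b2, hb2O⟩ = IsLocalRing.residue Ow ⟨b1, hb1O⟩ := by
    have h1 : IsLocalRing.residue Ow (⟨b1, hb1O⟩ - ⟨b2, hb2O⟩) = 0 :=
      (h0c_residue_eq_zero_iff hV.unif _).2 hdiff
    rw [map_sub, sub_eq_zero] at h1
    exact h1.symm
  have hT : Transcendental (IsLocalRing.ResidueField A₀) (IsLocalRing.residue Ow ⟨x, hx.mem⟩) := by
    rw [transcendental_iff]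
    intro q hq
    exact h0c_transc hV hx q hq
  have m1 := h0c_mem_chart hV hx hb1 hb1O
  have m2 := h0c_mem_chart hV hx' hb2 hb2O
  rw [hξ', hβ] at m2
  have halg : IsAlgebraic (IsLocalRing.ResidueField A₀) (IsLocalRing.residue Ow ⟨b1, hb1O⟩) :=
    const_abs hT m1 m2
  obtain ⟨q, hqm, hq⟩ := halg.isIntegral
  obtain ⟨p₀, hp₀, -, hp₀m⟩ := Polynomial.lifts_and_degree_eq_and_monic
    ((Polynomial.mem_lifts q).2 (Polynomial.map_surjective _ IsLocalRing.residue_surjective q)) hqm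
  have hres : aeval b1 (p₀.map A₀.subtype) / algebraMap K₀ F ϖ₀ ∈ Ow := by
    have h1 := h0c_aeval_eq hV ⟨b1, hb1O⟩ p₀
    rw [show ((⟨b1, hb1O⟩ : Ow) : F) = b1 from rfl] at h1
    rw [h1, ← h0c_residue_eq_zero_iff hV.unif, h0c_residue_eval₂, hp₀]
    exact hq
  obtain ⟨d, hd, hd'⟩ := hC b1 hb1O (p₀.map A₀.subtype) (hp₀m.map _)
    (fun i => by rw [coeff_map]; exact (p₀.coeff i).2) hres
  exact ⟨algebraMap K₀ F d, ⟨d, hd, rfl⟩, hd'⟩

end Fermat.Agent.S33.Cech
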