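/-
S33 / Layer II_p: `IsGoodP` for the two charts of a coordinate.  TASK CECH-13.
-/
import Fermat.Agent.S33.Cech.Mod.H0Chart

set_option autoImplicit false
set_option linter.unusedSectionVars false

namespace Fermat.Agent.S33.Cech

open Polynomial IntermediateField Fermat.Agent.S18

variable {K₀ F : Type*} [Field K₀] [CharZero K₀] [Field F] [Algebra K₀ F]
variable {A₀ : ValuationSubring K₀} {ϖ₀ : K₀} {Ow : ValuationSubring F}
variable {E : IntermediateField K₀ F} {x : F}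

theorem isGoodP_chart {p : ℕ} (hV : IsVert A₀ ϖ₀ Ow E) (hx : IsCoord A₀ ϖ₀ Ow E x)
    (hx' : IsCoord A₀ ϖ₀ Ow E x⁻¹) {η₀ : K₀} {e : ℕ} (hP : IsArithP p A₀ ϖ₀ η₀ e)
    (hC : ResConst A₀ ϖ₀ Ow) :
    IsGoodP p Ow (algebraMap K₀ F ϖ₀) (A₀.toSubring.map (algebraMap K₀ F))
      (chart A₀.toSubring x) (chart A₀.toSubring x⁻¹) (algebraMap K₀ F η₀) e := by
  have hϖ0 : ϖ₀ ≠ 0 := by
    intro h
    apply hV.unif₀.inv_notMem
    rw [h, inv_zero]
    exact A₀.zero_mem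
  have hϖF : algebraMap K₀ F ϖ₀ ≠ 0 := by
    rwa [Ne, map_eq_zero]
  have hη0 : η₀ ≠ 0 := by
    intro h
    have hp0 : (p : K₀) = 0 := by rw [hP.p_eq, h, zero_mul]
    have hp : p = 0 := by exact_mod_cast hp0
    obtain ⟨d, -, hd⟩ := hP.perfect 0 A₀.zero_mem
    apply hV.unif₀.inv_notMem
    rwa [hp, pow_zero, sub_zero, one_div] at hd
  refine ⟨⟨η₀, hP.η_mem, rfl⟩, ⟨η₀⁻¹, hP.η_inv, map_inv₀ _ _⟩, ?_, hP.e_pos, ?_, ?_, ?_,
    h0_chart hV hx hx' hC⟩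
  · rwa [Ne, map_eq_zero]
  · rw [← map_pow, ← map_mul, ← hP.p_eq, map_natCast]
  · rintro _ ⟨c₀, hc₀, rfl⟩
    obtain ⟨d₀, hd₀, h⟩ := hP.perfect c₀ hc₀
    refine ⟨algebraMap K₀ F d₀, ⟨d₀, hd₀, rfl⟩, ?_⟩
    have h1 := hV.const_mem _ h
    rwa [map_div₀, map_sub, map_pow] at h1
  · rintro z hz ⟨a, ha, h⟩
    have hz' : algebraMap K₀ F (a / ϖ₀) = z := by
      rw [map_div₀, h, mul_div_cancel_left₀ _ hϖF]
    exact ⟨a / ϖ₀, mem_of_algebraMap_mem hV (by rw [hz']; exact hz), hz'⟩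

/-- Artin-Schreier form of `ResConst`. -/
theorem hconst_of_resConst {p : ℕ} (hp : 1 < p) (hC : ResConst A₀ ϖ₀ Ow) {η₀ : K₀} (hη : η₀ ∈ A₀) :
    ∀ z ∈ Ow, ∀ d ∈ A₀.toSubring.map (algebraMap K₀ F),
      (z ^ p + algebraMap K₀ F η₀ * z - d) / algebraMap K₀ F ϖ₀ ∈ Ow →
      ∃ d' ∈ A₀.toSubring.map (algebraMap K₀ F), (z - d') / algebraMap K₀ F ϖ₀ ∈ Ow := by
  rintro z hz _ ⟨d₀, hd₀, rfl⟩ h
  have hdeg : (C η₀ * X + C (-d₀) : K₀[X]).degree < p :=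
    lt_of_le_of_lt degree_linear_le (by exact_mod_cast hp)
  have hmon : (X ^ p + (C η₀ * X + C (-d₀)) : K₀[X]).Monic := monic_X_pow_add hdeg
  have hco : ∀ i, (X ^ p + (C η₀ * X + C (-d₀)) : K₀[X]).coeff i ∈ A₀ := by
    intro i
    rw [coeff_add, coeff_add, coeff_X_pow, coeff_C_mul, coeff_X, coeff_C]
    refine A₀.add_mem _ _ ?_ (A₀.add_mem _ _ (A₀.mul_mem _ _ hη ?_) ?_)
    · split_ifs
      · exact A₀.one_mem
      · exact A₀.zero_mem
    · split_ifs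
      · exact A₀.one_mem
      · exact A₀.zero_mem
    · split_ifs
      · exact A₀.neg_mem _ hd₀
      · exact A₀.zero_mem
  have h1 : aeval z (X ^ p + (C η₀ * X + C (-d₀)) : K₀[X])
      = z ^ p + algebraMap K₀ F η₀ * z - algebraMap K₀ F d₀ := by
    simp only [map_add, map_mul, map_pow, aeval_X, aeval_C, map_neg]
    ring
  obtain ⟨d', hd', h'⟩ := hC z hz (X ^ p + (C η₀ * X + C (-d₀))) hmon hco (by rw [h1]; exact h)
  exact ⟨algebraMap K₀ F d', ⟨d', hd', rfl⟩, h'⟩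

/-- An automorphism which preserves the constants `A₀` and fixes `x` preserves the chart. -/
theorem map_mem_chart (σ : F ≃+* F)
    (hσA : ∀ a ∈ A₀, ∃ a' ∈ A₀, σ (algebraMap K₀ F a) = algebraMap K₀ F a') (hσx : σ x = x) :
    ∀ z ∈ chart A₀.toSubring x, σ z ∈ chart A₀.toSubring x := by
  have h1 : ∀ y ∈ polyRing A₀.toSubring x, σ y ∈ polyRing A₀.toSubring x := by
    intro y hy
    rw [mem_polyRing_iff] at hy
    obtain ⟨q, hq, rfl⟩ := hy
    rw [aeval_eq_sum_range, map_sum]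
    refine Subring.sum_mem _ fun i _ => ?_
    obtain ⟨a', ha', h2⟩ := hσA (q.coeff i) (hq i)
    rw [Algebra.smul_def, map_mul, map_pow, hσx, h2]
    exact Subring.mul_mem _ (Overlap.algebraMap_mem_polyRing _ _ ha')
      (Subring.pow_mem _ (Overlap.self_mem_polyRing _ _) _)
  intro z hz
  rw [mem_chart_iff_isIntegral] at hz ⊢
  let τ : polyRing A₀.toSubring x →+* polyRing A₀.toSubring x :=
    ((σ : F →+* F).comp (polyRing A₀.toSubring x).subtype).codRestrict (polyRing A₀.toSubring x)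
      (fun y => h1 y.1 y.2)
  exact IsIntegral.map_of_comp_eq τ (σ : F →+* F) (by ext c; rfl) hz

end Fermat.Agent.S33.Cech
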