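/-
S33 / Layer II_p (owner helper73): (KLp) and (EQ) for good reduction, relative form: analogue of
`kl_core` of KL-A with exponent `m = p` = the residue characteristic.
-/
import Fermat.Agent.S33.Cech.Good
import Fermat.Agent.S33.Cech.Mod.GoodP
import Fermat.Agent.S18.Chart.Basic
import Fermat.Agent.S18.Chart.Mem
import Fermat.Agent.S18.Chart.Const

set_option autoImplicit false

namespace Fermat.Agent.S33.Cech

open Polynomial IntermediateField Fermat.Agent.S18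

variable {K₀ F : Type*} [Field K₀] [CharZero K₀] [Field F] [Algebra K₀ F]
variable {A₀ : ValuationSubring K₀} {ϖ₀ : K₀} {Ow : ValuationSubring F}
variable {E : IntermediateField K₀ F} {x : F}

theorem klp_core {p : ℕ} (hp : p.Prime) (hV : IsVert A₀ ϖ₀ Ow E) (hx : IsCoord A₀ ϖ₀ Ow E x)
    (hx' : IsCoord A₀ ϖ₀ Ow E x⁻¹) (g₁ g₂ : A₀[X])
    (hg₁ : Squarefree (g₁.map (IsLocalRing.residue A₀)))
    (hg₂ : Squarefree (g₂.map (IsLocalRing.residue A₀)))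
    (hr₁ : IsUnramOutside x (g₁.map A₀.subtype)) (hr₂ : IsUnramOutside x⁻¹ (g₂.map A₀.subtype))
    {η₀ : K₀} {e : ℕ} (hP : IsArithP p A₀ ϖ₀ η₀ e) (hC : ResConst A₀ ϖ₀ Ow)
    {j0 : ℕ} (hj0 : (p - 1) * j0 = e) {h g : F}
    (hh : (h - 1) / algebraMap K₀ F ϖ₀ ∈ Ow)
    (r₁ : RootData (chart (⊤ : Subring K₀) x) 1 p h)
    (r₂ : RootData (chart (⊤ : Subring K₀) x⁻¹) 1 p h)
    (hg : (g ^ p * h - 1) / algebraMap K₀ F ϖ₀ ^ (p * j0 + 1) ∈ Ow) :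
    ∃ s : F, s ≠ 0 ∧ IsAlgebraic K₀ (s ^ p * h) := by
  obtain ⟨hh1, hh2⟩ := hV.unif.mem_of_sub_one hh
  obtain ⟨s, hs0, hs1, hs2⟩ := klp_good hp hV.unif
    (Subring.mem_map.mpr ⟨ϖ₀, hV.unif₀.mem, rfl⟩) (isCover_chart hV hx hx')
    (isChart_chart hV hx g₁ hg₁ hr₁) (isChart_chart hV hx' g₂ hg₂ hr₂)
    (isGoodP_chart hV hx hx' hP hC) hj0 (hconst_of_resConst hp.one_lt hC hP.η_mem) hh
    (rootData_chart hV hx hh1 hh2 r₁) (rootData_chart hV hx' hh1 hh2 r₂) hg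
  exact ⟨s, hs0, const_abs (hx.transcendental hV.unif₀) ((mem_chart_iff hV hx _).mp hs1).2
    ((mem_chart_iff hV hx' _).mp hs2).2⟩

theorem eq_core {p : ℕ} (hp : p.Prime) (hV : IsVert A₀ ϖ₀ Ow E) (hx : IsCoord A₀ ϖ₀ Ow E x)
    (hx' : IsCoord A₀ ϖ₀ Ow E x⁻¹) (g₁ g₂ : A₀[X])
    (hg₁ : Squarefree (g₁.map (IsLocalRing.residue A₀)))
    (hg₂ : Squarefree (g₂.map (IsLocalRing.residue A₀)))
    (hr₁ : IsUnramOutside x (g₁.map A₀.subtype)) (hr₂ : IsUnramOutside x⁻¹ (g₂.map A₀.subtype))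
    {η₀ : K₀} {e : ℕ} (hP : IsArithP p A₀ ϖ₀ η₀ e) (hC : ResConst A₀ ϖ₀ Ow)
    {j0 : ℕ} (hj0 : (p - 1) * j0 = e)
    (σ : F ≃+* F) (hσO : ∀ z ∈ Ow, σ z ∈ Ow)
    (hσA : ∀ a ∈ A₀, ∃ a' ∈ A₀, σ (algebraMap K₀ F a) = algebraMap K₀ F a') (hσx : σ x = x)
    (hσred : ∀ z ∈ Ow, (σ z - z) / algebraMap K₀ F ϖ₀ ∈ Ow) {c : ℕ} (hcp : c ≤ p)
    (hσπ : (σ (algebraMap K₀ F ϖ₀ ^ j0) - c * algebraMap K₀ F ϖ₀ ^ j0) /
      algebraMap K₀ F ϖ₀ ^ (j0 + 1) ∈ Ow)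
    {h g : F} (hh : (h - 1) / algebraMap K₀ F ϖ₀ ∈ Ow)
    (r₁ : RootData (chart (⊤ : Subring K₀) x) 1 p h)
    (r₂ : RootData (chart (⊤ : Subring K₀) x⁻¹) 1 p h)
    (r₁' : RootData (chart (⊤ : Subring K₀) x) 1 p (σ h * h ^ (p - c)))
    (hg : (g ^ p * h - 1) / algebraMap K₀ F ϖ₀ ^ (p * j0) ∈ Ow) :
    ∃ s : F, s ≠ 0 ∧ IsAlgebraic K₀ (s ^ p * (σ h * h ^ (p - c))) := by
  obtain ⟨hh1, hh2⟩ := hV.unif.mem_of_sub_one hh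
  have hσx' : σ x⁻¹ = x⁻¹ := by rw [map_inv₀, hσx]
  have hu1 : σ h * h ^ (p - c) ∈ Ow := Ow.mul_mem _ _ (hσO _ hh1) (Ow.pow_mem hh1 _)
  have hu2 : (σ h * h ^ (p - c))⁻¹ ∈ Ow := by
    rw [mul_inv, ← map_inv₀, ← inv_pow]
    exact Ow.mul_mem _ _ (hσO _ hh2) (Ow.pow_mem hh2 _)
  obtain ⟨s, hs0, hs1, hs2⟩ := eq_good hp hV.unif
    (Subring.mem_map.mpr ⟨ϖ₀, hV.unif₀.mem, rfl⟩) (isCover_chart hV hx hx')
    (isChart_chart hV hx g₁ hg₁ hr₁) (isChart_chart hV hx' g₂ hg₂ hr₂)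
    (isGoodP_chart hV hx hx' hP hC) hj0 σ hσO (map_mem_chart σ hσA hσx)
    (map_mem_chart σ hσA hσx') hσred hcp hσπ hh
    (rootData_chart hV hx hh1 hh2 r₁) (rootData_chart hV hx' hh1 hh2 r₂)
    (rootData_chart hV hx hu1 hu2 r₁') hg
  exact ⟨s, hs0, const_abs (hx.transcendental hV.unif₀) ((mem_chart_iff hV hx _).mp hs1).2
    ((mem_chart_iff hV hx' _).mp hs2).2⟩

end Fermat.Agent.S33.Cech
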