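/-
S33 / Layer II_p: the Gauss valuation ring of a subfield of `K₀((q))`: description by fractions and
constants of the residue field.  TASK CECH-15.
-/
import Fermat.Agent.S33.Cech.Mod.Defs
import Fermat.Agent.S33.Cech.Mod.Series
import Fermat.Agent.S18.Gauss.Basic
import Fermat.Agent.S18.Vert.Gauss

set_option autoImplicit false

namespace Fermat.Agent.S33.Cech

open Polynomial IntermediateField ModularCurve Fermat.Agent.S18

variable {K₀ : Type*} [Field K₀] {A₀ : ValuationSubring K₀} {ϖ₀ : K₀}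
  {L : IntermediateField K₀ (LaurentSeries K₀)} {Ow : ValuationSubring L}

/-- A fraction `P / Q` with `Q` of nonzero reduction lies in `Ow`. -/
private theorem gaussMod_mem_of_frac (hG : IsGauss A₀ ϖ₀ L Ow) (f : L) (P Q : LaurentSeries A₀)
    (hP : coeffMap A₀.subtype P ∈ L) (hQ : coeffMap A₀.subtype Q ∈ L)
    (hQ0 : coeffMap (IsLocalRing.residue A₀) Q ≠ 0)
    (h : (f : LaurentSeries K₀) * coeffMap A₀.subtype Q = coeffMap A₀.subtype P) : f ∈ Ow := by
  have hQ' : (⟨_, hQ⟩ : L) ≠ 0 := fun h => Gauss.iota_ne_zero hQ0 (congrArg Subtype.val h)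
  have h1 : f * ⟨_, hQ⟩ = ⟨_, hP⟩ := Subtype.ext h
  have h2 : f = ⟨_, hP⟩ * (⟨_, hQ⟩ : L)⁻¹ := by
    rw [← h1, mul_inv_cancel_right₀ hQ']
  rw [h2]
  exact mul_mem (hG.mem P hP) (hG.inv_mem Q hQ hQ0)

/-- `Ow` is the ring of fractions `P / Q`, `Q` with nonzero reduction.
(`→`: normal form `f * Q = ϖ₀ ^ n * P`, `P / Q` is a unit of `Ow`, so `ϖ ^ n ∈ Ow`, `0 ≤ n`
(`S18.nonneg_of_zpow_mem`).  `←`: `IsGauss.mem`, `IsGauss.inv_mem`.) -/
theorem mem_iff_mem_gaussSubring (h₀ : IsUnif A₀ ϖ₀) (hL : Gauss.HasNf A₀ ϖ₀ L)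
    (hG : IsGauss A₀ ϖ₀ L Ow) (f : L) : f ∈ Ow ↔ f ∈ Vert.gaussSubring A₀ L := by
  constructor
  · intro hf
    by_cases hf0 : f = 0
    · rw [hf0]; exact (Vert.gaussSubring A₀ L).zero_mem
    obtain ⟨n, P, Q, hP, hQ, hP0, hQ0, h⟩ := hL f f.2 (fun h => hf0 (Subtype.ext h))
    have hP' : (⟨_, hP⟩ : L) ≠ 0 := fun h => Gauss.iota_ne_zero hP0 (congrArg Subtype.val h)
    have h1 : f * ⟨_, hQ⟩ = algebraMap K₀ L ϖ₀ ^ n * ⟨_, hP⟩ := by
      apply Subtype.ext
      rw [← map_zpow₀]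
      exact h
    have h2 : algebraMap K₀ L ϖ₀ ^ n = f * ⟨_, hQ⟩ * (⟨_, hP⟩ : L)⁻¹ := by
      rw [h1, mul_inv_cancel_right₀ hP']
    have h3 : algebraMap K₀ L ϖ₀ ^ n ∈ Ow := by
      rw [h2]
      exact mul_mem (mul_mem hf (hG.mem Q hQ)) (hG.inv_mem P hP hP0)
    have hn : 0 ≤ n := by
      by_contra hlt
      apply hG.unif.inv_notMem
      have : (algebraMap K₀ L ϖ₀)⁻¹ = algebraMap K₀ L ϖ₀ ^ n * algebraMap K₀ L ϖ₀ ^ (-n - 1) := by
        rw [← zpow_add₀ hG.unif.ne_zero, ← zpow_neg_one]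
        congr 1; ring
      rw [this]
      exact mul_mem h3 (hG.unif.zpow_mem (by omega))
    have hd : ϖ₀ ^ n ∈ A₀ := h₀.zpow_mem hn
    have e : coeffMap A₀.subtype (HahnSeries.C (⟨_, hd⟩ : A₀) * P) =
        Gauss.cst (ϖ₀ ^ n) * coeffMap A₀.subtype P := by
      rw [map_mul]
      congr 1
      exact Gauss.iota_C _
    refine ⟨HahnSeries.C ⟨_, hd⟩ * P, Q, ?_, hQ, hQ0, ?_⟩
    · change coeffMap A₀.subtype _ ∈ L
      rw [e]
      exact mul_mem (Gauss.cst_mem _) hP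
    · change _ * coeffMap A₀.subtype Q = coeffMap A₀.subtype _
      rw [e]
      exact h
  · rintro ⟨P, Q, hP, hQ, hQ0, h⟩
    exact gaussMod_mem_of_frac hG f P Q hP hQ hQ0 h

/-- `f / ϖ ∈ Ow` iff `f = P / Q` with `P` of zero reduction. -/
theorem div_mem_iff (h₀ : IsUnif A₀ ϖ₀) (hL : Gauss.HasNf A₀ ϖ₀ L)
    (hG : IsGauss A₀ ϖ₀ L Ow) (f : L) : f / algebraMap K₀ L ϖ₀ ∈ Ow ↔
      ∃ P Q : LaurentSeries A₀, coeffMap A₀.subtype P ∈ L ∧ coeffMap A₀.subtype Q ∈ L ∧
        coeffMap (IsLocalRing.residue A₀) P = 0 ∧ coeffMap (IsLocalRing.residue A₀) Q ≠ 0 ∧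
        (f : LaurentSeries K₀) * coeffMap A₀.subtype Q = coeffMap A₀.subtype P := by
  have hc : Gauss.cst ϖ₀ ≠ 0 := Gauss.cst_ne_zero h₀.ne_zero
  have hcoe : ((f / algebraMap K₀ L ϖ₀ : L) : LaurentSeries K₀) =
      (f : LaurentSeries K₀) / Gauss.cst ϖ₀ := rfl
  constructor
  · intro hf
    rw [mem_iff_mem_gaussSubring h₀ hL hG] at hf
    obtain ⟨P, Q, hP, hQ, hQ0, h⟩ := hf
    have e : coeffMap A₀.subtype (HahnSeries.C (⟨_, h₀.mem⟩ : A₀) * P) =
        Gauss.cst ϖ₀ * coeffMap A₀.subtype P := by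
      rw [map_mul]
      congr 1
      exact Gauss.iota_C _
    refine ⟨HahnSeries.C ⟨_, h₀.mem⟩ * P, Q, ?_, hQ, ?_, hQ0, ?_⟩
    · rw [e]
      exact mul_mem (Gauss.cst_mem _) hP
    · have h1 : IsLocalRing.residue A₀ (⟨_, h₀.mem⟩ : A₀) = 0 := by
        rw [Gauss.residue_eq_zero_iff h₀]
        change ϖ₀ / ϖ₀ ∈ A₀
        rw [div_self h₀.ne_zero]
        exact A₀.one_mem
      have h2 : coeffMap (IsLocalRing.residue A₀) (HahnSeries.C (⟨_, h₀.mem⟩ : A₀)) = 0 := by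
        have := Vert.red_C A₀ (⟨_, h₀.mem⟩ : A₀)
        rw [h1, map_zero] at this
        exact this
      rw [map_mul, h2, zero_mul]
    · rw [e]
      have h' : (f : LaurentSeries K₀) / Gauss.cst ϖ₀ * coeffMap A₀.subtype Q =
          coeffMap A₀.subtype P := h
      rw [← h']
      field_simp
  · rintro ⟨P, Q, hP, hQ, hP0, hQ0, h⟩
    obtain ⟨P', hP'⟩ := Gauss.exists_eq_cst_mul h₀ P hP0
    have hP'L : coeffMap A₀.subtype P' ∈ L := by
      have : coeffMap A₀.subtype P' = (Gauss.cst ϖ₀)⁻¹ * coeffMap A₀.subtype P := by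
        rw [hP', inv_mul_cancel_left₀ hc]
      rw [this]
      exact mul_mem (L.inv_mem (Gauss.cst_mem _)) hP
    refine gaussMod_mem_of_frac hG _ P' Q hP'L hQ hQ0 ?_
    rw [hcoe, div_mul_eq_mul_div, h, hP', mul_div_cancel_left₀ _ hc]

private theorem gaussMod_rho_C (a : A₀) :
    coeffMap (IsLocalRing.residue A₀) (HahnSeries.C a) =
      algebraMap _ (LaurentSeries (IsLocalRing.ResidueField A₀)) (IsLocalRing.residue A₀ a) := by
  rw [algebraMap_laurentSeries_eq_single]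
  exact coeffMap_single _ 0 a

/-- Homogenisation of a polynomial and ring homomorphisms to a field. -/
private theorem gaussMod_map_homog {R S : Type*} [CommRing R] [Field S] (φ : R →+* S) (g : R[X])
    (P Q : R) (hQ : φ Q ≠ 0) :
    φ (∑ i ∈ Finset.range (g.natDegree + 1), g.coeff i * P ^ i * Q ^ (g.natDegree - i)) =
      eval₂ φ (φ P / φ Q) g * φ Q ^ g.natDegree := by
  rw [eval₂_eq_sum_range, map_sum, Finset.sum_mul]
  refine Finset.sum_congr rfl fun i hi => ?_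
  have hi' : i ≤ g.natDegree := by
    have := Finset.mem_range.mp hi
    omega
  obtain ⟨k, hk⟩ := Nat.exists_eq_add_of_le hi'
  rw [hk, Nat.add_sub_cancel_left, map_mul, map_mul, map_pow, map_pow, pow_add, div_pow]
  field_simp

/-- The residue field of `A₀` is algebraically closed in the residue field of the Gauss valuation.
Proof: `z = P / Q`, `r := red P / red Q ∈ k₀((q))`.  `aeval z f = P' / Q ^ n` with
`red P' = (aeval r f̄) * red Q ^ n`; by `div_mem_iff` (and uniqueness of the reduction of a fraction)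
`aeval r f̄ = 0`; `exists_const_of_aeval_eq_zero` gives `r = c̄`; lift `c̄` to `d ∈ A₀`;
`z - d = (P - d Q) / Q` and `red (P - d Q) = 0`. -/
theorem resConst_of_isGauss (h₀ : IsUnif A₀ ϖ₀) (hL : Gauss.HasNf A₀ ϖ₀ L)
    (hG : IsGauss A₀ ϖ₀ L Ow) : ResConst A₀ ϖ₀ Ow := by
  intro z hz f hf hfc hdiv
  rw [mem_iff_mem_gaussSubring h₀ hL hG] at hz
  obtain ⟨P, Q, hP, hQ, hQ0, h⟩ := hz
  change coeffMap A₀.subtype P ∈ L at hP
  change coeffMap A₀.subtype Q ∈ L at hQ
  change coeffMap (IsLocalRing.residue A₀) Q ≠ 0 at hQ0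
  change (z : LaurentSeries K₀) * coeffMap A₀.subtype Q = coeffMap A₀.subtype P at h
  rw [div_mem_iff h₀ hL hG] at hdiv
  obtain ⟨P₁, Q₁, -, -, hP₁0, hQ₁0, h₁⟩ := hdiv
  have hQi : coeffMap A₀.subtype Q ≠ 0 := Gauss.iota_ne_zero hQ0
  -- the lift of `f`
  have hlift : f ∈ Polynomial.lifts A₀.subtype := by
    rw [Polynomial.lifts_iff_coeff_lifts]
    intro i
    exact ⟨⟨_, hfc i⟩, rfl⟩
  obtain ⟨f₀, hf₀, -, hf₀m⟩ := Polynomial.lifts_and_natDegree_eq_and_monic hlift hf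
  set g : (LaurentSeries A₀)[X] := f₀.map (HahnSeries.C : A₀ →+* LaurentSeries A₀) with hg
  set H : LaurentSeries A₀ :=
    ∑ i ∈ Finset.range (g.natDegree + 1), g.coeff i * P ^ i * Q ^ (g.natDegree - i) with hH
  have hz' : coeffMap A₀.subtype P / coeffMap A₀.subtype Q = (z : LaurentSeries K₀) := by
    rw [← h, mul_div_cancel_right₀ _ hQi]
  -- the image of `H` in `K₀((q))`
  have hcompι : (coeffMap A₀.subtype).comp (HahnSeries.C : A₀ →+* LaurentSeries A₀) =
      (algebraMap K₀ (LaurentSeries K₀)).comp A₀.subtype := by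
    ext a : 1
    exact Gauss.iota_C a
  have hι : coeffMap A₀.subtype H =
      ((aeval z f : L) : LaurentSeries K₀) * coeffMap A₀.subtype Q ^ g.natDegree := by
    rw [hH, gaussMod_map_homog (coeffMap A₀.subtype) g P Q hQi, hz', hg, eval₂_map, hcompι,
      ← eval₂_map, hf₀, ← IntermediateField.aeval_coe]
    rfl
  -- the image of `H` in `k₀((q))`
  have hcompρ : (coeffMap (IsLocalRing.residue A₀)).comp
      (HahnSeries.C : A₀ →+* LaurentSeries A₀) =
      (algebraMap (IsLocalRing.ResidueField A₀)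
        (LaurentSeries (IsLocalRing.ResidueField A₀))).comp (IsLocalRing.residue A₀) := by
    ext a : 1
    exact gaussMod_rho_C a
  set r : LaurentSeries (IsLocalRing.ResidueField A₀) :=
    coeffMap (IsLocalRing.residue A₀) P / coeffMap (IsLocalRing.residue A₀) Q with hr
  have hρ : coeffMap (IsLocalRing.residue A₀) H =
      aeval r (f₀.map (IsLocalRing.residue A₀)) *
        coeffMap (IsLocalRing.residue A₀) Q ^ g.natDegree := by
    rw [hH, gaussMod_map_homog (coeffMap (IsLocalRing.residue A₀)) g P Q hQ0, hg, eval₂_map,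
      hcompρ, ← eval₂_map]
    rfl
  -- the reduction of `H` vanishes
  have hHQ : H * Q₁ = P₁ * Q ^ g.natDegree := by
    apply Fermat.Agent.S28.Export.iota_injective A₀
    change coeffMap A₀.subtype _ = coeffMap A₀.subtype _
    rw [map_mul, map_mul, map_pow, hι, ← h₁]
    ring
  have hH0 : coeffMap (IsLocalRing.residue A₀) H = 0 := by
    have := congrArg (coeffMap (IsLocalRing.residue A₀)) hHQ
    rw [map_mul, map_mul, hP₁0, zero_mul] at this
    exact (mul_eq_zero.mp this).resolve_right hQ₁0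
  have hroot : aeval r (f₀.map (IsLocalRing.residue A₀)) = 0 := by
    rw [hρ] at hH0
    exact (mul_eq_zero.mp hH0).resolve_right (pow_ne_zero _ hQ0)
  obtain ⟨c, hc⟩ := exists_const_of_aeval_eq_zero r _ (hf₀m.map _) hroot
  obtain ⟨d, rfl⟩ := IsLocalRing.residue_surjective c
  refine ⟨d, d.2, ?_⟩
  rw [div_mem_iff h₀ hL hG]
  have e : coeffMap A₀.subtype (P - HahnSeries.C d * Q) =
      coeffMap A₀.subtype P - Gauss.cst (d : K₀) * coeffMap A₀.subtype Q := by
    rw [map_sub, map_mul]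
    congr 2
    exact Gauss.iota_C _
  refine ⟨P - HahnSeries.C d * Q, Q, ?_, hQ, ?_, hQ0, ?_⟩
  · rw [e]
    exact sub_mem hP (mul_mem (Gauss.cst_mem _) hQ)
  · have h2 : coeffMap (IsLocalRing.residue A₀) (HahnSeries.C d) =
        algebraMap _ (LaurentSeries (IsLocalRing.ResidueField A₀)) (IsLocalRing.residue A₀ d) :=
      gaussMod_rho_C d
    rw [map_sub, map_mul, h2, ← hc, hr, div_mul_cancel₀ _ hQ0, sub_self]
  · rw [e, ← h]
    change ((z : LaurentSeries K₀) - Gauss.cst (d : K₀)) * _ = _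
    ring

end Fermat.Agent.S33.Cech
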