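/-
S33 / Layer II_p: the coefficientwise action of an automorphism of the constant field on
`laurentBaseChange K₀ F₀`, and its effect on the Gauss ring.  TASK CECH-16.
-/
import Fermat.Agent.S33.Cech.Mod.Defs
import Fermat.Agent.S18.Vert.Gauss
import Fermat.Agent.S18.Descent.Union
import Fermat.Agent.S18.ModDefs

set_option autoImplicit false
set_option linter.unusedSectionVars false

noncomputable section

namespace Fermat.Agent.S33.Cech

open Polynomial IntermediateField ModularCurve Fermat.Agent.S18 Fermat.Agent.S18.Descent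

variable {K₀ : Type*} [Field K₀] [Algebra ℚ K₀] (F₀ : IntermediateField ℚ (LaurentSeries ℚ))

/-- The coefficientwise action of `τ` on `K₀ · F₀ ⊆ K₀((q))`. -/
def sigmaF (τ : K₀ ≃+* K₀) : laurentBaseChange K₀ F₀ ≃+* laurentBaseChange K₀ F₀ :=
  { baseChangeMap F₀ (τ : K₀ →+* K₀) with
    invFun := baseChangeMap F₀ (τ.symm : K₀ →+* K₀)
    left_inv := by
      intro x
      apply Subtype.ext
      show coeffMap (τ.symm : K₀ →+* K₀) (coeffMap (τ : K₀ →+* K₀) (x : LaurentSeries K₀)) = x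
      rw [coeffMap_coeffMap]
      have : ((τ.symm : K₀ →+* K₀).comp (τ : K₀ →+* K₀)) = RingHom.id K₀ :=
        RingHom.ext fun a => τ.symm_apply_apply a
      rw [this, coeffMap_id]
    right_inv := by
      intro x
      apply Subtype.ext
      show coeffMap (τ : K₀ →+* K₀) (coeffMap (τ.symm : K₀ →+* K₀) (x : LaurentSeries K₀)) = x
      rw [coeffMap_coeffMap]
      have : ((τ : K₀ →+* K₀).comp (τ.symm : K₀ →+* K₀)) = RingHom.id K₀ :=
        RingHom.ext fun a => τ.apply_symm_apply a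
      rw [this, coeffMap_id] }

variable {F₀}

theorem coe_sigmaF (τ : K₀ ≃+* K₀) (x : laurentBaseChange K₀ F₀) :
    (sigmaF F₀ τ x : LaurentSeries K₀) = coeffMap (τ : K₀ →+* K₀) (x : LaurentSeries K₀) := rfl

theorem sigmaF_algebraMap (τ : K₀ ≃+* K₀) (a : K₀) :
    sigmaF F₀ τ (algebraMap K₀ (laurentBaseChange K₀ F₀) a) =
      algebraMap K₀ (laurentBaseChange K₀ F₀) (τ a) :=
  baseChangeMap_algebraMap (τ : K₀ →+* K₀) a

/-- elements defined over `ℚ` are fixed. -/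
theorem sigmaF_coeffEmb (τ : K₀ ≃+* K₀) (z : LaurentSeries ℚ) (hz : z ∈ F₀) :
    sigmaF F₀ τ ⟨coeffEmb K₀ z, coeffEmb_mem_laurentBaseChange K₀ hz⟩ =
      ⟨coeffEmb K₀ z, coeffEmb_mem_laurentBaseChange K₀ hz⟩ :=
  Subtype.ext (coeffMap_coeffEmb' (τ : K₀ →+* K₀) z)

variable {A₀ : ValuationSubring K₀} {ϖ₀ : K₀}

/-- The coefficientwise image of an integral series, as an integral series. -/
private def sigmaLift (τ : K₀ ≃+* K₀) (hτA : ∀ a ∈ A₀, τ a ∈ A₀) (P : LaurentSeries A₀) :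
    LaurentSeries A₀ :=
  Vert.liftS A₀ (coeffMap (τ : K₀ →+* K₀) (Vert.inc A₀ P)) fun n => hτA _ (P.coeff n).2

private theorem inc_sigmaLift (τ : K₀ ≃+* K₀) (hτA : ∀ a ∈ A₀, τ a ∈ A₀) (P : LaurentSeries A₀) :
    Vert.inc A₀ (sigmaLift τ hτA P) = coeffMap (τ : K₀ →+* K₀) (Vert.inc A₀ P) :=
  Vert.inc_liftS A₀ _ _

private theorem red_sigmaLift_ne_zero (τ : K₀ ≃+* K₀) (hτA : ∀ a ∈ A₀, τ a ∈ A₀)
    {Q : LaurentSeries A₀} (hQ : Vert.red A₀ Q ≠ 0) : Vert.red A₀ (sigmaLift τ hτA Q) ≠ 0 := by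
  obtain ⟨n, hn⟩ : ∃ n, (Vert.red A₀ Q).coeff n ≠ 0 := by
    by_contra hcon
    simp only [not_exists, not_not] at hcon
    exact hQ (HahnSeries.ext (funext hcon))
  rw [Vert.red_coeff, Ne, IsLocalRing.residue_eq_zero_iff, IsLocalRing.mem_maximalIdeal,
    mem_nonunits_iff, not_not] at hn
  obtain ⟨u, hu⟩ := hn
  intro h0
  have h1 : IsLocalRing.residue A₀ ((sigmaLift τ hτA Q).coeff n) = 0 := by
    rw [← Vert.red_coeff, h0, HahnSeries.coeff_zero]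
  rw [IsLocalRing.residue_eq_zero_iff, IsLocalRing.mem_maximalIdeal, mem_nonunits_iff] at h1
  apply h1
  refine IsUnit.of_mul_eq_one (⟨τ ((↑u⁻¹ : A₀) : K₀), hτA _ (↑u⁻¹ : A₀).2⟩ : A₀) ?_
  apply Subtype.ext
  show τ ((Q.coeff n : A₀) : K₀) * τ ((↑u⁻¹ : A₀) : K₀) = 1
  rw [← map_mul, ← hu, ← A₀.coe_mul, Units.mul_inv, A₀.coe_one, map_one]

/-- `(τ P - P) / ϖ₀` as an integral series. -/
private def sigmaDiff (ϖ₀ : K₀) (τ : K₀ ≃+* K₀) (hτI : ∀ a ∈ A₀, (τ a - a) / ϖ₀ ∈ A₀)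
    (P : LaurentSeries A₀) : LaurentSeries A₀ :=
  Vert.liftS A₀ (algebraMap K₀ (LaurentSeries K₀) ϖ₀⁻¹ *
    (coeffMap (τ : K₀ →+* K₀) (Vert.inc A₀ P) - Vert.inc A₀ P)) fun n => by
      rw [Vert.coeff_algebraMap_mul, HahnSeries.coeff_sub, mul_comm, ← div_eq_mul_inv]
      exact hτI _ (P.coeff n).2

private theorem inc_sigmaDiff (τ : K₀ ≃+* K₀) (hτI : ∀ a ∈ A₀, (τ a - a) / ϖ₀ ∈ A₀)
    (P : LaurentSeries A₀) :
    Vert.inc A₀ (sigmaDiff ϖ₀ τ hτI P) = algebraMap K₀ (LaurentSeries K₀) ϖ₀⁻¹ *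
      (coeffMap (τ : K₀ →+* K₀) (Vert.inc A₀ P) - Vert.inc A₀ P) :=
  Vert.inc_liftS A₀ _ _

/-- `τ` preserves the Gauss ring.  (`z * Q = P` gives `τ z * τ Q = τ P`; a coefficient of `Q` which
is a unit of `A₀` is mapped to a unit.) -/
theorem sigmaF_mem (τ : K₀ ≃+* K₀) (hτA : ∀ a ∈ A₀, τ a ∈ A₀) :
    ∀ z ∈ Vert.gaussSubring A₀ (laurentBaseChange K₀ F₀),
      sigmaF F₀ τ z ∈ Vert.gaussSubring A₀ (laurentBaseChange K₀ F₀) := by
  rintro z ⟨P, Q, hP, hQ, hQ0, h⟩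
  refine ⟨sigmaLift τ hτA P, sigmaLift τ hτA Q, ?_, ?_, red_sigmaLift_ne_zero τ hτA hQ0, ?_⟩
  · rw [inc_sigmaLift]; exact coeffMap_mem_laurentBaseChange' _ hP
  · rw [inc_sigmaLift]; exact coeffMap_mem_laurentBaseChange' _ hQ
  · rw [inc_sigmaLift, inc_sigmaLift, coe_sigmaF, ← map_mul, h]

/-- if `τ` is trivial on the residue field of `A₀` then it is trivial on the residue field of the
Gauss valuation.  (`τ z - z = (τ P * Q - P * τ Q) / (Q * τ Q)`, all the coefficients of the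
numerator are divisible by `ϖ₀`.) -/
theorem sigmaF_sub_mem (h₀ : IsUnif A₀ ϖ₀) (τ : K₀ ≃+* K₀) (hτA : ∀ a ∈ A₀, τ a ∈ A₀)
    (hτI : ∀ a ∈ A₀, (τ a - a) / ϖ₀ ∈ A₀) :
    ∀ z ∈ Vert.gaussSubring A₀ (laurentBaseChange K₀ F₀),
      (sigmaF F₀ τ z - z) / algebraMap K₀ (laurentBaseChange K₀ F₀) ϖ₀ ∈
        Vert.gaussSubring A₀ (laurentBaseChange K₀ F₀) := by
  rintro z ⟨P, Q, hP, hQ, hQ0, h⟩
  have hϖ : ϖ₀ ≠ 0 := by
    rintro rfl
    exact h₀.inv_notMem (by rw [inv_zero]; exact A₀.zero_mem)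
  have hc : algebraMap K₀ (LaurentSeries K₀) ϖ₀ ≠ 0 := by
    rw [Ne, map_eq_zero]; exact hϖ
  have hτP := coeffMap_mem_laurentBaseChange' (F₀ := F₀) (τ : K₀ →+* K₀) hP
  have hτQ := coeffMap_mem_laurentBaseChange' (F₀ := F₀) (τ : K₀ →+* K₀) hQ
  have hτ : coeffMap (τ : K₀ →+* K₀) (z : LaurentSeries K₀) *
      coeffMap (τ : K₀ →+* K₀) (Vert.inc A₀ Q) = coeffMap (τ : K₀ →+* K₀) (Vert.inc A₀ P) := by
    rw [← map_mul, h]
  refine ⟨sigmaDiff ϖ₀ τ hτI P * Q - P * sigmaDiff ϖ₀ τ hτI Q, Q * sigmaLift τ hτA Q,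
    ?_, ?_, ?_, ?_⟩
  · rw [map_sub, map_mul, map_mul, inc_sigmaDiff, inc_sigmaDiff]
    exact sub_mem
      (mul_mem (mul_mem ((laurentBaseChange K₀ F₀).algebraMap_mem _) (sub_mem hτP hP)) hQ)
      (mul_mem hP (mul_mem ((laurentBaseChange K₀ F₀).algebraMap_mem _) (sub_mem hτQ hQ)))
  · rw [map_mul, inc_sigmaLift]; exact mul_mem hQ hτQ
  · rw [map_mul]; exact mul_ne_zero hQ0 (red_sigmaLift_ne_zero τ hτA hQ0)
  · rw [map_sub, map_mul, map_mul, map_mul, inc_sigmaDiff, inc_sigmaDiff, inc_sigmaLift, ← hτ, ← h]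
    have e : (((sigmaF F₀ τ z - z) / algebraMap K₀ (laurentBaseChange K₀ F₀) ϖ₀ :
        laurentBaseChange K₀ F₀) : LaurentSeries K₀) =
        (coeffMap (τ : K₀ →+* K₀) (z : LaurentSeries K₀) - z) /
          algebraMap K₀ (LaurentSeries K₀) ϖ₀ := rfl
    rw [e, map_inv₀]
    field_simp
    ring

end Fermat.Agent.S33.Cech

end
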