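/-
S33 / Layer II_p (owner helper73): (KLp) and (EQ) for the function field of `X₀(M)`, `p ∤ M`, over a
number field `K₀ ∋ ζ_p`, from a base coordinate (`S18.BaseData M p`).
Analogue of `kl₀_of_base` of KL-A with exponent `p` = the residue characteristic.
-/
import Fermat.Agent.S33.Cech.Mod.Core
import Fermat.Agent.S33.Cech.Mod.Gauss
import Fermat.Agent.S33.Cech.Mod.Sigma
import Fermat.Agent.S33.Cech.Mod.Arith
import Fermat.Agent.S33.Cech.Mod.ArithNF
import Fermat.Agent.S18.Gauss.VertJ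
import Fermat.Agent.S18.Base.Coord
import Fermat.Agent.S18.Places.Root
import Fermat.Agent.S18.Places.Unram
import Fermat.Agent.S18.Descent.Chart
import Fermat.Agent.S18.Descent.HorizontalBC
import Fermat.Agent.S18.Descent.JLine
import Fermat.Agent.S18.Chart.Mono

set_option autoImplicit false
set_option linter.style.haveILetI false

noncomputable section

namespace Fermat.Agent.S33.Cech

open Polynomial IntermediateField ModularCurve AlgebraicCurve Fermat.Agent.S18 Fermat.Agent.S24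
open Fermat.Agent.S24.FF

theorem toBar_xK' {M ℓ : ℕ} (D : BaseData M ℓ) (K₀ : IntermediateField ℚ Kbar) :
    Descent.toBar (modularFunctionFieldFull M) K₀ (D.xK K₀) = D.xK Kbar :=
  Subtype.ext (Descent.coeffMap_coeffEmb' _ _)

theorem map_map_int' {R S : Type*} [CommRing R] [CommRing S] (f : R →+* S) (g : ℤ[X]) :
    (g.map (Int.castRingHom R)).map f = g.map (Int.castRingHom S) := by
  rw [Polynomial.map_map]
  congr 1
  exact Subsingleton.elim _ _

/-- All the geometric inputs of `klp_core`, `eq_core` at level `M`. -/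
structure GeomInputs {M p : ℕ} (D : BaseData M p) (A : ValuationSubring Kbar)
    (K₀ : IntermediateField ℚ Kbar) (ϖ₀ : K₀) (Ow : ValuationSubring (FK K₀ M)) : Prop where
  unif₀ : IsUnif (A.comap (algebraMap K₀ Kbar)) ϖ₀
  gauss : IsGauss (A.comap (algebraMap K₀ Kbar)) ϖ₀ (FK K₀ M) Ow
  vert : IsVert (A.comap (algebraMap K₀ Kbar)) ϖ₀ Ow K₀⟮D.xK K₀⟯
  coord : IsCoord (A.comap (algebraMap K₀ Kbar)) ϖ₀ Ow K₀⟮D.xK K₀⟯ (D.xK K₀)
  coord' : IsCoord (A.comap (algebraMap K₀ Kbar)) ϖ₀ Ow K₀⟮D.xK K₀⟯ (D.xK K₀)⁻¹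
  sq₁ : Squarefree ((D.g₁.map (Int.castRingHom (A.comap (algebraMap K₀ Kbar)))).map
    (IsLocalRing.residue (A.comap (algebraMap K₀ Kbar))))
  sq₂ : Squarefree ((D.g₂.map (Int.castRingHom (A.comap (algebraMap K₀ Kbar)))).map
    (IsLocalRing.residue (A.comap (algebraMap K₀ Kbar))))
  ram₁ : IsUnramOutside (D.xK K₀)
      ((D.g₁.map (Int.castRingHom (A.comap (algebraMap K₀ Kbar)))).map
        (A.comap (algebraMap K₀ Kbar)).subtype)
  ram₂ : IsUnramOutside (D.xK K₀)⁻¹
      ((D.g₂.map (Int.castRingHom (A.comap (algebraMap K₀ Kbar)))).map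
        (A.comap (algebraMap K₀ Kbar)).subtype)

theorem exists_geomInputs {M p : ℕ} [NeZero M] [Fact p.Prime] (hpM : ¬ p ∣ M) (D : BaseData M p)
    (A : ValuationSubring Kbar) (hA : A.LiesOverPrime p) (K₀ : IntermediateField ℚ Kbar)
    [FiniteDimensional ℚ K₀] :
    ∃ (ϖ₀ : K₀) (Ow : ValuationSubring (FK K₀ M)), GeomInputs D A K₀ ϖ₀ Ow := by
  obtain ⟨U, -, -⟩ := S28.Export.exists_good_UData M p hpM
  obtain ⟨ϖ₀, h₀, hℓA⟩ := exists_isUnif_comap A hA K₀
  obtain ⟨Ow, hG⟩ := exists_isGauss h₀ M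
  have hVj := isVert_j h₀ hpM hℓA U hG
  have hV := hVj.mono (adjoin_jK_le D K₀)
  have hx := isCoord_base h₀ D hG
  have hx' := isCoord_base_inv h₀ D hG
  have htrbar : Transcendental Kbar (D.xK Kbar) := transcendental_xK D Kbar
  have htrbar' : Transcendental Kbar (D.xK Kbar)⁻¹ := FF.transcendental_inv htrbar
  haveI : FiniteDimensional Kbar⟮D.xK Kbar⟯ (FK Kbar M) := IsFF1.finite _ htrbar
  haveI : FiniteDimensional Kbar⟮(D.xK Kbar)⁻¹⟯ (FK Kbar M) := IsFF1.finite _ htrbar'
  haveI : Algebra.IsAlgebraic K₀ Kbar := inferInstance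
  refine ⟨ϖ₀, Ow, h₀, hG, hV, hx, hx', squarefree_map_residue h₀ hℓA D.g₁ D.sep₁,
    squarefree_map_residue h₀ hℓA D.g₂ D.sep₂, ?_, ?_⟩
  · rw [map_map_int']
    apply isUnramOutside_descent (Descent.toBar (modularFunctionFieldFull M) K₀)
      (Descent.toBar_algebraMap (modularFunctionFieldFull M) K₀)
    rw [map_map_int', toBar_xK']
    exact isUnramOutside_of_places htrbar _ fun v c hc hv => D.ram₁ v c hc hv
  · rw [map_map_int']
    apply isUnramOutside_descent (Descent.toBar (modularFunctionFieldFull M) K₀)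
      (Descent.toBar_algebraMap (modularFunctionFieldFull M) K₀)
    rw [map_map_int', map_inv₀, toBar_xK']
    exact isUnramOutside_of_places htrbar' _ fun v c hc hv => D.ram₂ v c hc hv

end Fermat.Agent.S33.Cech

end
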