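/-
S33 / Layer II_p: small lemmas for the assembly at level `M`.  TASK CECH-19.
-/
import Fermat.Agent.S33.Cech.Mod.Defs

set_option autoImplicit false

namespace Fermat.Agent.S33.Cech

open Polynomial IntermediateField Fermat.Agent.S18

variable {K₀ F : Type*} [Field K₀] [Field F] [Algebra K₀ F]
variable {A₀ : ValuationSubring K₀} {ϖ₀ : K₀} {Ow : ValuationSubring F}

/-- `h = 1 + c y`, `v(c) ≥ m`, `y` integral: `h ≡ 1 mod ϖ ^ m`. -/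
theorem deep_div_mem (h₀ : IsUnif A₀ ϖ₀) (hc : ∀ a ∈ A₀, algebraMap K₀ F a ∈ Ow) {c : K₀} {m : ℕ}
    (hcm : c / ϖ₀ ^ m ∈ A₀) {y h : F} (hy : y ∈ Ow) (hh : h = 1 + algebraMap K₀ F c * y) :
    (h - 1) / algebraMap K₀ F ϖ₀ ^ m ∈ Ow := by
  have h1 : (h - 1) / algebraMap K₀ F ϖ₀ ^ m = algebraMap K₀ F (c / ϖ₀ ^ m) * y := by
    rw [hh, map_div₀, map_pow]
    ring
  rw [h1]
  exact Ow.mul_mem _ _ (hc _ hcm) hy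

/-- `(μ ϖ₀ ^ j0) ^ p / ϖ₀ ^ (p j0) ∈ A₀`. -/
theorem zeta_pow_div_mem (h₀ : IsUnif A₀ ϖ₀) {μ z : K₀} {j0 p : ℕ} (hμ : μ ∈ A₀)
    (hz : z = μ * ϖ₀ ^ j0) : z ^ p / ϖ₀ ^ (p * j0) ∈ A₀ := by
  have hϖ := h₀.ne_zero
  have h1 : z ^ p / ϖ₀ ^ (p * j0) = μ ^ p := by
    rw [hz, mul_pow, ← pow_mul, mul_comm j0 p]
    field_simp
  rw [h1]
  exact A₀.pow_mem hμ p

/-- `(μ ϖ₀ ^ j0) ^ p t / ϖ₀ ^ (p j0 + 1) ∈ A₀` for a non unit `t`. -/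
theorem zeta_pow_mul_div_mem (h₀ : IsUnif A₀ ϖ₀) {μ z t : K₀} {j0 p : ℕ} (hμ : μ ∈ A₀)
    (hz : z = μ * ϖ₀ ^ j0) (ht : t ∈ A₀) (ht' : t⁻¹ ∉ A₀) :
    z ^ p * t / ϖ₀ ^ (p * j0 + 1) ∈ A₀ := by
  have hϖ := h₀.ne_zero
  have h1 : z ^ p * t / ϖ₀ ^ (p * j0 + 1) = μ ^ p * (t / ϖ₀) := by
    rw [hz, mul_pow, ← pow_mul, mul_comm j0 p, pow_succ]
    field_simp
  rw [h1]
  exact A₀.mul_mem _ _ (A₀.pow_mem hμ p) (h₀.div_mem ht ht')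

/-- non units are divisible by the uniformiser -/
theorem div_mem_of_mem_nonunits (h₀ : IsUnif A₀ ϖ₀) {a : K₀} (ha : a ∈ A₀.nonunits) :
    a / ϖ₀ ∈ A₀ := by
  rcases A₀.mem_nonunits_iff_or.mp ha with rfl | hinv
  · rw [zero_div]
    exact A₀.zero_mem
  · exact h₀.div_mem (A₀.nonunits_subset ha) hinv

/-- monotonicity of the depth -/
theorem div_pow_mem_mono (hU : IsUnif Ow (algebraMap K₀ F ϖ₀)) {m m' : ℕ} (hm : m ≤ m') {z : F}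
    (hz : z / algebraMap K₀ F ϖ₀ ^ m' ∈ Ow) : z / algebraMap K₀ F ϖ₀ ^ m ∈ Ow := by
  have hϖ := hU.ne_zero
  obtain ⟨k, rfl⟩ := Nat.exists_eq_add_of_le hm
  have h1 : z / algebraMap K₀ F ϖ₀ ^ m
      = z / algebraMap K₀ F ϖ₀ ^ (m + k) * algebraMap K₀ F ϖ₀ ^ k := by
    rw [pow_add]
    field_simp
  rw [h1]
  exact Ow.mul_mem _ _ hz (Ow.pow_mem hU.mem k)

/-- transport of a congruence of constants -/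
theorem algebraMap_div_mem (hc : ∀ a ∈ A₀, algebraMap K₀ F a ∈ Ow) (σ : F ≃+* F) (τ : K₀ ≃+* K₀)
    (hστ : ∀ a, σ (algebraMap K₀ F a) = algebraMap K₀ F (τ a)) {c j0 : ℕ}
    (h : (τ (ϖ₀ ^ j0) - c * ϖ₀ ^ j0) / ϖ₀ ^ (j0 + 1) ∈ A₀) :
    (σ (algebraMap K₀ F ϖ₀ ^ j0) - c * algebraMap K₀ F ϖ₀ ^ j0) /
      algebraMap K₀ F ϖ₀ ^ (j0 + 1) ∈ Ow := by
  have h1 : (σ (algebraMap K₀ F ϖ₀ ^ j0) - c * algebraMap K₀ F ϖ₀ ^ j0) /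
      algebraMap K₀ F ϖ₀ ^ (j0 + 1)
      = algebraMap K₀ F ((τ (ϖ₀ ^ j0) - c * ϖ₀ ^ j0) / ϖ₀ ^ (j0 + 1)) := by
    rw [map_div₀, map_sub, map_mul, map_natCast, ← hστ, map_pow (algebraMap K₀ F) ϖ₀ j0,
      map_pow (algebraMap K₀ F) ϖ₀ (j0 + 1)]
  rw [h1]
  exact hc _ h

end Fermat.Agent.S33.Cech
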