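/-
S33 / Layer II_p (owner helper73): (KLp) and (EQ) at level `M`, `p ∤ M`, over a number field
`K₀ ∋ ζ_p`.
-/
import Fermat.Agent.S33.Cech.Mod.Base
import Fermat.Agent.S33.Cech.Mod.Small

set_option autoImplicit false
set_option linter.style.haveILetI false

noncomputable section

namespace Fermat.Agent.S33.Cech

open Polynomial IntermediateField ModularCurve AlgebraicCurve Fermat.Agent.S18 Fermat.Agent.S24
open Fermat.Agent.S24.FF

variable {M p : ℕ} [NeZero M] [Fact p.Prime]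

/-- **(KLp) over a number field.**  `h = 1 + (ζ - 1) ^ p t y` with `t` a non unit of `A₀ = A ∩ K₀` and
`y` Gauss integral, `p ∣ div h`: then `h` is a `p`-th power up to a constant. -/
theorem klp₀_of_base (hpM : ¬ p ∣ M) (D : BaseData M p) (A : ValuationSubring Kbar)
    (hA : A.LiesOverPrime p) (K₀ : IntermediateField ℚ Kbar) [FiniteDimensional ℚ K₀]
    (ζ : K₀) (hζ : IsPrimitiveRoot ζ p) (t : K₀) (ht : t ∈ A.comap (algebraMap K₀ Kbar))
    (ht' : t⁻¹ ∉ A.comap (algebraMap K₀ Kbar)) (h y : FK K₀ M)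
    (hy : y ∈ Vert.gaussSubring (A.comap (algebraMap K₀ Kbar)) (FK K₀ M))
    (hh : h = 1 + algebraMap K₀ (FK K₀ M) ((ζ - 1) ^ p * t) * y)
    (hdvd : ∀ w : Place K₀ (FK K₀ M), (p : ℤ) ∣ w.ord h) :
    ∃ s : FK K₀ M, s ≠ 0 ∧ IsAlgebraic K₀ (s ^ p * h) := by
  have hp : p.Prime := Fact.out
  obtain ⟨ϖ₀, Ow, G⟩ := exists_geomInputs hpM D A hA K₀
  obtain ⟨η₀, e, hP⟩ := exists_isArithP A hA K₀ G.unif₀
  obtain ⟨j0, μ, hj0, hμ, hμ', hζμ⟩ := exists_zeta_unif hp G.unif₀ hP hζ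
  have hL := Gauss.hasNf_FK G.unif₀ M
  have hC := resConst_of_isGauss G.unif₀ hL G.gauss
  have hyO : y ∈ Ow := (mem_iff_mem_gaussSubring G.unif₀ hL G.gauss y).2 hy
  have hdeep : (h - 1) / algebraMap K₀ (FK K₀ M) ϖ₀ ^ (p * j0 + 1) ∈ Ow :=
    deep_div_mem G.unif₀ G.vert.const_mem (zeta_pow_mul_div_mem G.unif₀ hμ hζμ ht ht') hyO hh
  have hh1 : (h - 1) / algebraMap K₀ (FK K₀ M) ϖ₀ ∈ Ow := by
    have := div_pow_mem_mono G.vert.unif (m := 1) (by omega) hdeep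
    rwa [pow_one] at this
  have hh0 : h ≠ 0 := by
    intro h0
    rw [h0, zero_sub, neg_div, one_div] at hh1
    exact G.vert.unif.inv_notMem (by simpa using neg_mem hh1)
  have htr : Transcendental K₀ (D.xK K₀) := transcendental_xK D K₀
  have htr' : Transcendental K₀ (D.xK K₀)⁻¹ := FF.transcendental_inv htr
  haveI : FiniteDimensional K₀⟮D.xK K₀⟯ (FK K₀ M) := IsFF1.finite _ htr
  haveI : FiniteDimensional K₀⟮(D.xK K₀)⁻¹⟯ (FK K₀ M) := IsFF1.finite _ htr'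
  have r₁ := rootData_of_places htr hp.ne_zero hh0 (fun v _ => hdvd v)
  have r₂ := rootData_of_places htr' hp.ne_zero hh0 (fun v _ => hdvd v)
  exact klp_core hp G.vert G.coord G.coord' _ _ G.sq₁ G.sq₂ G.ram₁ G.ram₂ hP hC hj0 (g := 1) hh1
    r₁ r₂ (by rwa [one_pow, one_mul])

/-- **(EQ) over a number field.**  `h = 1 + (ζ - 1) ^ p y` with `y` Gauss integral, `p ∣ div h`, `τ` an
automorphism of `K₀` in the inertia group of `A₀` with `τ ζ = ζ ^ c`: then `τ h / h ^ c` is a `p`-th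
power up to a constant. -/
theorem eq₀_of_base (hpM : ¬ p ∣ M) (D : BaseData M p) (A : ValuationSubring Kbar)
    (hA : A.LiesOverPrime p) (K₀ : IntermediateField ℚ Kbar) [FiniteDimensional ℚ K₀]
    (ζ : K₀) (hζ : IsPrimitiveRoot ζ p) (τ : K₀ ≃+* K₀)
    (hτA : ∀ a ∈ A.comap (algebraMap K₀ Kbar), τ a ∈ A.comap (algebraMap K₀ Kbar))
    (hτI : ∀ a ∈ A.comap (algebraMap K₀ Kbar), τ a - a ∈ (A.comap (algebraMap K₀ Kbar)).nonunits)
    {c : ℕ} (hc : c ≤ p) (hτζ : τ ζ = ζ ^ c) (h y : FK K₀ M)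
    (hy : y ∈ Vert.gaussSubring (A.comap (algebraMap K₀ Kbar)) (FK K₀ M))
    (hh : h = 1 + algebraMap K₀ (FK K₀ M) ((ζ - 1) ^ p) * y)
    (hdvd : ∀ w : Place K₀ (FK K₀ M), (p : ℤ) ∣ w.ord h)
    (hdvd' : ∀ w : Place K₀ (FK K₀ M),
      (p : ℤ) ∣ w.ord (sigmaF (modularFunctionFieldFull M) τ h * h ^ (p - c))) :
    ∃ s : FK K₀ M, s ≠ 0 ∧
      IsAlgebraic K₀ (s ^ p * (sigmaF (modularFunctionFieldFull M) τ h * h ^ (p - c))) := by
  have hp : p.Prime := Fact.out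
  obtain ⟨ϖ₀, Ow, G⟩ := exists_geomInputs hpM D A hA K₀
  obtain ⟨η₀, e, hP⟩ := exists_isArithP A hA K₀ G.unif₀
  obtain ⟨j0, μ, hj0, hμ, hμ', hζμ⟩ := exists_zeta_unif hp G.unif₀ hP hζ
  have hj1 : 1 ≤ j0 := by
    rcases Nat.eq_zero_or_pos j0 with h0 | h0
    · have := hP.e_pos
      rw [← hj0, h0] at this
      simp at this
    · exact h0
  have hτI' : ∀ a ∈ A.comap (algebraMap K₀ Kbar), (τ a - a) / ϖ₀ ∈ A.comap (algebraMap K₀ Kbar) :=
    fun a ha => div_mem_of_mem_nonunits G.unif₀ (hτI a ha)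
  have hL := Gauss.hasNf_FK G.unif₀ M
  have hC := resConst_of_isGauss G.unif₀ hL G.gauss
  have hO : ∀ z, z ∈ Ow ↔ z ∈ Vert.gaussSubring (A.comap (algebraMap K₀ Kbar)) (FK K₀ M) :=
    mem_iff_mem_gaussSubring G.unif₀ hL G.gauss
  have hyO : y ∈ Ow := (hO y).2 hy
  have hdeep : (h - 1) / algebraMap K₀ (FK K₀ M) ϖ₀ ^ (p * j0) ∈ Ow :=
    deep_div_mem G.unif₀ G.vert.const_mem (zeta_pow_div_mem G.unif₀ hμ hζμ) hyO hh
  have hh1 : (h - 1) / algebraMap K₀ (FK K₀ M) ϖ₀ ∈ Ow := by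
    have := div_pow_mem_mono G.vert.unif (m := 1) (by nlinarith [hp.two_le]) hdeep
    rwa [pow_one] at this
  have hh0 : h ≠ 0 := by
    intro h0
    rw [h0, zero_sub, neg_div, one_div] at hh1
    exact G.vert.unif.inv_notMem (by simpa using neg_mem hh1)
  set σ := sigmaF (modularFunctionFieldFull M) τ with hσ
  have hu0 : σ h * h ^ (p - c) ≠ 0 :=
    mul_ne_zero ((map_ne_zero_iff _ σ.injective).2 hh0) (pow_ne_zero _ hh0)
  have htr : Transcendental K₀ (D.xK K₀) := transcendental_xK D K₀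
  have htr' : Transcendental K₀ (D.xK K₀)⁻¹ := FF.transcendental_inv htr
  haveI : FiniteDimensional K₀⟮D.xK K₀⟯ (FK K₀ M) := IsFF1.finite _ htr
  haveI : FiniteDimensional K₀⟮(D.xK K₀)⁻¹⟯ (FK K₀ M) := IsFF1.finite _ htr'
  have r₁ := rootData_of_places htr hp.ne_zero hh0 (fun v _ => hdvd v)
  have r₂ := rootData_of_places htr' hp.ne_zero hh0 (fun v _ => hdvd v)
  have r₁' := rootData_of_places htr hp.ne_zero hu0 (fun v _ => hdvd' v)
  refine eq_core hp G.vert G.coord G.coord' _ _ G.sq₁ G.sq₂ G.ram₁ G.ram₂ hP hC hj0 σ ?_ ?_ ?_ ?_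
    hc ?_ (g := 1) hh1 r₁ r₂ r₁' (by rwa [one_pow, one_mul])
  · intro z hz
    exact (hO _).2 (sigmaF_mem τ hτA z ((hO z).1 hz))
  · intro a ha
    exact ⟨τ a, hτA a ha, sigmaF_algebraMap τ a⟩
  · exact sigmaF_coeffEmb τ _ D.mem
  · intro z hz
    exact (hO _).2 (sigmaF_sub_mem G.unif₀ τ hτA hτI' z ((hO z).1 hz))
  · exact algebraMap_div_mem G.vert.const_mem σ τ (sigmaF_algebraMap τ)
      (sigma_unif hp G.unif₀ hj1 hμ hμ' hζμ (hζ.ne_one hp.one_lt) τ hτA hτI' hτζ)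

end Fermat.Agent.S33.Cech

end
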